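import Fermat.Agent.S25.H11.ACDefs

/-!
# Row S25, block ALGCHARTS: the formal assembly TOP (helper191)

`Stmt.AlgCharts` from the leaves of the skeleton of helper11
(`coord/S25-ALGCHARTS-skeleton.lean`): the gluing-datum calculus `gdc_*`, the five stage
lemmas `stage0_locus … stage4_locus`, the three point lemmas `pointCond_bc`,
`pointCond_unique`, `pointCond_iso` and the cover lemma `exists_good_chart`.  The leaves enter
as hypotheses, verbatim.

The only non-trivial step is the *composition of loci* (`HasLocus.comp`): if a property `P` of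
base changes of a gluing datum `G` over `A` is cut out by an ideal of `A`, and a stronger
property `Q` is cut out by an ideal on every base change on which `P` holds, then `Q` is cut out
by an ideal of `A`, namely the span of all `c : A` such that `Q` holds on every base change on
which `c` becomes a unit.
-/

set_option autoImplicit false
set_option linter.style.haveILetI false

universe u

open scoped TensorProduct

namespace Fermat.Agent.S25.H191.ACTop

open Fermat.Agent.S25 Fermat.Agent.S25.H11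

noncomputable section

/-! ## Commutative algebra: lifting from a localisation, residue fields -/

section Algebra

variable {k : Type u} [Field k]

/-- A `k`-algebra map inverting `a` factors through `Localization.Away a`. -/
theorem exists_lift_away {A A₁ : Type u} [CommRing A] [Algebra k A] [CommRing A₁] [Algebra k A₁]
    (a : A) (ψ : A →ₐ[k] A₁) (hu : IsUnit (ψ a)) :
    ∃ θ : Localization.Away a →ₐ[k] A₁,
      θ.comp (IsScalarTower.toAlgHom k A (Localization.Away a)) = ψ := by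
  have hM : ∀ y : Submonoid.powers a, IsUnit (ψ (y : A)) := by
    rintro ⟨y, n, rfl⟩
    rw [map_pow]
    exact hu.pow n
  refine ⟨IsLocalization.liftAlgHom (M := Submonoid.powers a) (f := ψ) hM, ?_⟩
  ext r
  simp

/-- The image of `a` in `Localization.Away a` is a unit. -/
theorem isUnit_away {A : Type u} [CommRing A] [Algebra k A] (a : A) :
    IsUnit (IsScalarTower.toAlgHom k A (Localization.Away a) a) :=
  IsLocalization.Away.algebraMap_isUnit a

/-- An ideal containing an element which becomes a unit maps to the unit ideal. -/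
theorem map_eq_top_of_isUnit {A A₁ : Type u} [CommRing A] [Algebra k A] [CommRing A₁]
    [Algebra k A₁] (J : Ideal A) (ψ : A →ₐ[k] A₁) {b : A} (hb : b ∈ J) (hu : IsUnit (ψ b)) :
    J.map ψ.toRingHom = ⊤ :=
  Ideal.eq_top_of_isUnit_mem _ (Ideal.mem_map_of_mem ψ.toRingHom hb) hu

/-- An ideal below a maximal ideal does not map to the unit ideal of the residue field. -/
theorem map_mk_ne_top {A A' : Type u} [CommRing A] [Algebra k A] [CommRing A'] [Algebra k A']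
    (J : Ideal A) (ψ : A →ₐ[k] A') (m : Ideal A') (hm : m.IsMaximal)
    (hle : J.map ψ.toRingHom ≤ m) :
    J.map ((Ideal.Quotient.mkₐ k m).comp ψ).toRingHom ≠ ⊤ := by
  intro htop
  have h1 : J.map ((Ideal.Quotient.mkₐ k m).comp ψ).toRingHom ≤ ⊥ := by
    rw [Ideal.map_le_iff_le_comap]
    intro a ha
    rw [Ideal.mem_comap, Ideal.mem_bot]
    exact Ideal.Quotient.eq_zero_iff_mem.2 (hle (Ideal.mem_map_of_mem ψ.toRingHom ha))
  rw [htop] at h1
  haveI : Nontrivial (A' ⧸ m) := Ideal.Quotient.nontrivial_iff.2 hm.ne_top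
  exact bot_ne_top (le_bot_iff.1 h1).symm

/-- An element outside a maximal ideal is a unit of the residue field. -/
theorem isUnit_mk_of_notMem {A A' : Type u} [CommRing A] [Algebra k A] [CommRing A']
    [Algebra k A'] (ψ : A →ₐ[k] A') (m : Ideal A') (hm : m.IsMaximal) {c : A}
    (hc : ψ c ∉ m) : IsUnit (((Ideal.Quotient.mkₐ k m).comp ψ) c) := by
  letI : Field (A' ⧸ m) := Ideal.Quotient.field m
  refine IsUnit.mk0 _ ?_
  intro h0
  exact hc (Ideal.Quotient.eq_zero_iff_mem.1 h0)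

/-- If an ideal maps to the unit ideal, some element of it avoids a given maximal ideal. -/
theorem exists_mem_notMem_of_map_eq_top {A A' : Type u} [CommRing A] [CommRing A']
    (S : Set A) (ψ : A →+* A') (h : (Ideal.span S).map ψ = ⊤) (m : Ideal A')
    (hm : m.IsMaximal) : ∃ c ∈ S, ψ c ∉ m := by
  by_contra hcon
  push Not at hcon
  have h1 : (Ideal.span S).map ψ ≤ m := by
    rw [Ideal.map_le_iff_le_comap, Ideal.span_le]
    exact fun c hc => hcon c hc
  rw [h] at h1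
  exact hm.ne_top (top_le_iff.1 h1)

end Algebra

variable {k : Type u} [Field k] {B₀ B₁ B₀₁ : Type u} [CommRing B₀] [CommRing B₁] [CommRing B₀₁]
  [Algebra k B₀] [Algebra k B₁] [Algebra k B₀₁] [Algebra B₀ B₀₁] [Algebra B₁ B₀₁]
  [IsScalarTower k B₀ B₀₁] [IsScalarTower k B₁ B₀₁]

/-! ## The gluing-datum calculus, as a hypothesis -/

variable (k B₀ B₁ B₀₁) in
/-- The facts GDC1, GDC2, GDC4, GDC5 of the gluing-datum calculus (skeleton statements
`gdc_exists`, `gdc_id`, `gdc_comp`, `gdc_cancel`, verbatim). -/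
structure GDC : Prop where
  ex : ∀ {A A' : Type u} [CommRing A] [Algebra k A] [CommRing A'] [Algebra k A']
    (φ : A →ₐ[k] A') (G : CurveGD k B₀ B₁ B₀₁ A),
    ∃ G' : CurveGD k B₀ B₁ B₀₁ A', CurveGD.IsBC φ G G'
  id : ∀ {A : Type u} [CommRing A] [Algebra k A] {G G' : CurveGD k B₀ B₁ B₀₁ A},
    G.IsIso G' → CurveGD.IsBC (AlgHom.id k A) G G'
  comp : ∀ {A A' A'' : Type u} [CommRing A] [Algebra k A] [CommRing A'] [Algebra k A']
    [CommRing A''] [Algebra k A''] {φ : A →ₐ[k] A'} {ψ : A' →ₐ[k] A''}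
    {G : CurveGD k B₀ B₁ B₀₁ A} {G' : CurveGD k B₀ B₁ B₀₁ A'} {G'' : CurveGD k B₀ B₁ B₀₁ A''},
    CurveGD.IsBC φ G G' → CurveGD.IsBC ψ G' G'' → CurveGD.IsBC (ψ.comp φ) G G''
  cancel : ∀ {A A' A'' : Type u} [CommRing A] [Algebra k A] [CommRing A'] [Algebra k A']
    [CommRing A''] [Algebra k A''] {φ : A →ₐ[k] A'} {ψ : A' →ₐ[k] A''}
    {G : CurveGD k B₀ B₁ B₀₁ A} {G' : CurveGD k B₀ B₁ B₀₁ A'} {G'' : CurveGD k B₀ B₁ B₀₁ A''},
    CurveGD.IsBC φ G G' → CurveGD.IsBC (ψ.comp φ) G G'' → CurveGD.IsBC ψ G' G''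

/-- A gluing datum is isomorphic to itself. -/
theorem isIso_refl {A : Type u} [CommRing A] [Algebra k A] (G : CurveGD k B₀ B₁ B₀₁ A) :
    G.IsIso G :=
  ⟨{ e₀ := LinearEquiv.refl _ _
     e₁ := LinearEquiv.refl _ _
     e₀₁ := LinearEquiv.refl _ _
     comm₀ := fun _ => rfl
     comm₁ := fun _ => rfl }⟩

theorem GDC.self (h : GDC k B₀ B₁ B₀₁) {A : Type u} [CommRing A] [Algebra k A]
    (G : CurveGD k B₀ B₁ B₀₁ A) : CurveGD.IsBC (AlgHom.id k A) G G :=
  h.id (isIso_refl G)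

/-- Base changes of isomorphic data: `G'` is a base change of `G` and `G' ≅ G''`, then `G''` is a
base change of `G`. -/
theorem GDC.of_isIso (h : GDC k B₀ B₁ B₀₁) {A A' : Type u} [CommRing A] [Algebra k A]
    [CommRing A'] [Algebra k A'] {φ : A →ₐ[k] A'} {G : CurveGD k B₀ B₁ B₀₁ A}
    {G' G'' : CurveGD k B₀ B₁ B₀₁ A'} (hbc : CurveGD.IsBC φ G G') (hiso : G'.IsIso G'') :
    CurveGD.IsBC φ G G'' := by
  have := h.comp hbc (h.id hiso)
  rwa [AlgHom.id_comp] at this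

/-! ## Properties cut out by an ideal -/

variable (k B₀ B₁ B₀₁) in
/-- A property of gluing data over varying `k`-algebras. -/
abbrev Pred : Type (u + 1) :=
  ∀ (A : Type u) [CommRing A] [Algebra k A], CurveGD k B₀ B₁ B₀₁ A → Prop

/-- The property `P` of the base changes of `G` is cut out by an ideal of `A`. -/
def HasLocus (P : Pred k B₀ B₁ B₀₁) {A : Type u} [CommRing A] [Algebra k A]
    (G : CurveGD k B₀ B₁ B₀₁ A) : Prop :=
  ∃ J : Ideal A, ∀ (A' : Type u) [CommRing A'] [Algebra k A'] (ψ : A →ₐ[k] A')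
    (G' : CurveGD k B₀ B₁ B₀₁ A'), CurveGD.IsBC ψ G G' → (P A' G' ↔ J.map ψ.toRingHom = ⊤)

/-- A property with a locus which holds for `G` holds for all base changes of `G`. -/
theorem HasLocus.stable (h : GDC k B₀ B₁ B₀₁) {P : Pred k B₀ B₁ B₀₁} {A : Type u} [CommRing A]
    [Algebra k A] {G : CurveGD k B₀ B₁ B₀₁ A} (hP : HasLocus P G) (hG : P A G)
    {A' : Type u} [CommRing A'] [Algebra k A'] (ψ : A →ₐ[k] A')
    (G' : CurveGD k B₀ B₁ B₀₁ A') (hbc : CurveGD.IsBC ψ G G') : P A' G' := by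
  obtain ⟨J, hJ⟩ := hP
  have h1 : J.map (AlgHom.id k A).toRingHom = ⊤ := (hJ A (AlgHom.id k A) G (h.self G)).1 hG
  have h2 : J = ⊤ := by
    have : J.map (RingHom.id A) = ⊤ := h1
    rwa [Ideal.map_id] at this
  rw [hJ A' ψ G' hbc, h2, Ideal.map_top]

/-- **Composition of loci.** -/
theorem HasLocus.comp (h : GDC k B₀ B₁ B₀₁) {P Q : Pred k B₀ B₁ B₀₁} {A : Type u} [CommRing A]
    [Algebra k A] (G : CurveGD k B₀ B₁ B₀₁ A) (hP : HasLocus P G)
    (hQ : ∀ (A₁ : Type u) [CommRing A₁] [Algebra k A₁] (ψ₁ : A →ₐ[k] A₁)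
      (G₁ : CurveGD k B₀ B₁ B₀₁ A₁), CurveGD.IsBC ψ₁ G G₁ → P A₁ G₁ → HasLocus Q G₁)
    (hQP : ∀ (A₁ : Type u) [CommRing A₁] [Algebra k A₁] (G₁ : CurveGD k B₀ B₁ B₀₁ A₁),
      Q A₁ G₁ → P A₁ G₁) :
    HasLocus Q G := by
  obtain ⟨J, hJ⟩ := hP
  -- the good elements: `Q` holds wherever `c` is invertible
  let S : Set A := {c | ∀ (A₁ : Type u) [CommRing A₁] [Algebra k A₁] (ψ₁ : A →ₐ[k] A₁)
    (G₁ : CurveGD k B₀ B₁ B₀₁ A₁), CurveGD.IsBC ψ₁ G G₁ → IsUnit (ψ₁ c) → Q A₁ G₁}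
  refine ⟨Ideal.span S, ?_⟩
  intro A' _ _ ψ G' hG'
  constructor
  · -- `Q G'` implies that the good elements generate the unit ideal of `A'`
    intro hQ'
    have hP' : P A' G' := hQP A' G' hQ'
    have hJ' : J.map ψ.toRingHom = ⊤ := (hJ A' ψ G' hG').1 hP'
    by_contra hne
    obtain ⟨m, hm, hle⟩ := Ideal.exists_le_maximal _ hne
    -- an element `a ∈ J` with `ψ a ∉ m`
    obtain ⟨a, haJ, ham⟩ : ∃ a ∈ J, ψ a ∉ m := by
      have h1 : (Ideal.span (J : Set A)).map ψ.toRingHom = ⊤ := by rwa [Ideal.span_eq]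
      exact exists_mem_notMem_of_map_eq_top (J : Set A) ψ.toRingHom h1 m hm
    -- the localisation at `a`, where `P` holds, so that `Q` has a locus `Ja`
    let ιa : A →ₐ[k] Localization.Away a := IsScalarTower.toAlgHom k A (Localization.Away a)
    obtain ⟨Ga, hGa⟩ := h.ex ιa G
    have hPa : P (Localization.Away a) Ga :=
      (hJ _ ιa Ga hGa).2 (map_eq_top_of_isUnit J ιa haJ (isUnit_away a))
    have hLa : HasLocus Q Ga := hQ _ ιa Ga hGa hPa
    obtain ⟨Ja, hJa⟩ := hLa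
    -- the residue field at `m`
    letI : Field (A' ⧸ m) := Ideal.Quotient.field m
    let χ : A' →ₐ[k] (A' ⧸ m) := Ideal.Quotient.mkₐ k m
    obtain ⟨GK, hGK⟩ := h.ex χ G'
    have hGK' : CurveGD.IsBC (χ.comp ψ) G GK := h.comp hG' hGK
    have hQK : Q (A' ⧸ m) GK := (hQ A' ψ G' hG' hP').stable h hQ' χ GK hGK
    obtain ⟨θ, hθ⟩ := exists_lift_away a (χ.comp ψ) (isUnit_mk_of_notMem ψ m hm ham)
    have hGaK : CurveGD.IsBC θ Ga GK := h.cancel hGa (by rw [hθ]; exact hGK')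
    have hJaK : Ja.map θ.toRingHom = ⊤ := (hJa _ θ GK hGaK).1 hQK
    -- an element `t ∈ Ja` with `θ t ≠ 0`
    obtain ⟨t, htJ, ht⟩ : ∃ t ∈ Ja, θ t ≠ 0 := by
      by_contra hcon
      push Not at hcon
      have h1 : Ja.map θ.toRingHom ≤ ⊥ := by
        rw [Ideal.map_le_iff_le_comap]
        intro t ht
        rw [Ideal.mem_comap, Ideal.mem_bot]
        exact hcon t ht
      rw [hJaK] at h1
      exact bot_ne_top (le_bot_iff.1 h1).symm
    -- clear denominators: `t * a ^ n = b`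
    obtain ⟨⟨b, ⟨_, n, rfl⟩⟩, hb⟩ := IsLocalization.surj (Submonoid.powers a) t
    have hb' : ιa b = t * ιa a ^ n := by
      simpa [ιa] using hb.symm
    have hbJ : ιa b ∈ Ja := by
      rw [hb']
      exact Ja.mul_mem_right _ htJ
    have hθι : ∀ r : A, θ (ιa r) = χ (ψ r) := fun r => by
      rw [← AlgHom.comp_apply, hθ, AlgHom.comp_apply]
    have hψb : ψ b ∉ m := by
      intro hmem
      have h0 : χ (ψ b) = 0 := Ideal.Quotient.eq_zero_iff_mem.2 hmem
      rw [← hθι, hb', map_mul, map_pow, hθι a] at h0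
      rcases mul_eq_zero.1 h0 with h0 | h0
      · exact ht h0
      · exact ham (Ideal.Quotient.eq_zero_iff_mem.1 (eq_zero_of_pow_eq_zero h0))
    -- `a * b` is good
    have hab : a * b ∈ S := by
      intro A₁ _ _ ψ₁ G₁ hG₁ hu
      rw [map_mul] at hu
      have hua : IsUnit (ψ₁ a) := isUnit_of_mul_isUnit_left hu
      have hub : IsUnit (ψ₁ b) := isUnit_of_mul_isUnit_right hu
      obtain ⟨θ₁, hθ₁⟩ := exists_lift_away a ψ₁ hua
      have hGa₁ : CurveGD.IsBC θ₁ Ga G₁ := h.cancel hGa (by rw [hθ₁]; exact hG₁)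
      refine (hJa _ θ₁ G₁ hGa₁).2 (map_eq_top_of_isUnit Ja θ₁ hbJ ?_)
      rw [← AlgHom.comp_apply, hθ₁]
      exact hub
    have hmem : ψ (a * b) ∈ m := hle (Ideal.mem_map_of_mem ψ.toRingHom (Ideal.subset_span hab))
    rw [map_mul] at hmem
    rcases hm.isPrime.mem_or_mem hmem with h1 | h1
    · exact ham h1
    · exact hψb h1
  · -- conversely
    intro hS
    -- `Q` holds on the residue field datum at every maximal ideal of `A'`
    have hQm : ∀ (m : Ideal A') (_ : m.IsMaximal) (GK : CurveGD k B₀ B₁ B₀₁ (A' ⧸ m)),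
        CurveGD.IsBC (Ideal.Quotient.mkₐ k m) G' GK → Q (A' ⧸ m) GK := by
      intro m hm GK hGK
      obtain ⟨c, hc, hcm⟩ := exists_mem_notMem_of_map_eq_top S ψ.toRingHom hS m hm
      exact hc _ ((Ideal.Quotient.mkₐ k m).comp ψ) GK (h.comp hG' hGK)
        (isUnit_mk_of_notMem ψ m hm hcm)
    have hP' : P A' G' := by
      rw [hJ A' ψ G' hG']
      by_contra hne
      obtain ⟨m, hm, hle⟩ := Ideal.exists_le_maximal _ hne
      obtain ⟨GK, hGK⟩ := h.ex (Ideal.Quotient.mkₐ k m) G'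
      have hPK := hQP _ GK (hQm m hm GK hGK)
      exact map_mk_ne_top J ψ m hm hle ((hJ _ _ GK (h.comp hG' hGK)).1 hPK)
    obtain ⟨J'', hJ''⟩ := hQ A' ψ G' hG' hP'
    have htop : J'' = ⊤ := by
      by_contra hne
      obtain ⟨m, hm, hle⟩ := Ideal.exists_le_maximal _ hne
      obtain ⟨GK, hGK⟩ := h.ex (Ideal.Quotient.mkₐ k m) G'
      have h1 := (hJ'' _ _ GK hGK).1 (hQm m hm GK hGK)
      have h2 := map_mk_ne_top J'' (AlgHom.id k A') m hm (by
        have : J''.map (RingHom.id A') ≤ m := by rwa [Ideal.map_id]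
        exact this)
      rw [AlgHom.comp_id] at h2
      exact h2 h1
    refine (hJ'' A' (AlgHom.id k A') G' (h.self G')).2 ?_
    rw [htop, Ideal.map_top]

/-! ## The leaves of the skeleton -/

section Top

variable (x : B₀) (y : B₁) (e : B₁ →ₐ[k] k)

/-- The leaves of the ALGCHARTS skeleton of helper11 (statements verbatim, for a fixed curve
chart `(x, y, e)`): GDC1, GDC2, GDC4–GDC7, ST0–ST4, PT-BC, PT-UNIQ, PT-ISO, COVER. -/
structure Leaves : Prop where
  gdc_exists : ∀ {A A' : Type u} [CommRing A] [Algebra k A] [CommRing A'] [Algebra k A']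
    (φ : A →ₐ[k] A') (G : CurveGD k B₀ B₁ B₀₁ A),
    ∃ G' : CurveGD k B₀ B₁ B₀₁ A', CurveGD.IsBC φ G G'
  gdc_id : ∀ {A : Type u} [CommRing A] [Algebra k A] {G G' : CurveGD k B₀ B₁ B₀₁ A},
    G.IsIso G' → CurveGD.IsBC (AlgHom.id k A) G G'
  gdc_comp : ∀ {A A' A'' : Type u} [CommRing A] [Algebra k A] [CommRing A'] [Algebra k A']
    [CommRing A''] [Algebra k A''] {φ : A →ₐ[k] A'} {ψ : A' →ₐ[k] A''}
    {G : CurveGD k B₀ B₁ B₀₁ A} {G' : CurveGD k B₀ B₁ B₀₁ A'} {G'' : CurveGD k B₀ B₁ B₀₁ A''},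
    CurveGD.IsBC φ G G' → CurveGD.IsBC ψ G' G'' → CurveGD.IsBC (ψ.comp φ) G G''
  gdc_cancel : ∀ {A A' A'' : Type u} [CommRing A] [Algebra k A] [CommRing A'] [Algebra k A']
    [CommRing A''] [Algebra k A''] {φ : A →ₐ[k] A'} {ψ : A' →ₐ[k] A''}
    {G : CurveGD k B₀ B₁ B₀₁ A} {G' : CurveGD k B₀ B₁ B₀₁ A'} {G'' : CurveGD k B₀ B₁ B₀₁ A''},
    CurveGD.IsBC φ G G' → CurveGD.IsBC (ψ.comp φ) G G'' → CurveGD.IsBC ψ G' G''
  gdc_rig : ∀ {A A' : Type u} [CommRing A] [Algebra k A] [CommRing A'] [Algebra k A']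
    {φ : A →ₐ[k] A'} {G : CurveGD k B₀ B₁ B₀₁ A} {G' : CurveGD k B₀ B₁ B₀₁ A'},
    CurveGD.IsBC φ G G' → G.Rigidifiable e → G'.Rigidifiable e
  gdc_deg0 : ∀ {A A' : Type u} [CommRing A] [Algebra k A] [CommRing A'] [Algebra k A']
    {φ : A →ₐ[k] A'} {G : CurveGD k B₀ B₁ B₀₁ A} {G' : CurveGD k B₀ B₁ B₀₁ A'},
    CurveGD.IsBC φ G G' → G.Deg0 → G'.Deg0
  stage0_locus : ∀ {A : Type u} [CommRing A] [Algebra k A] (n : ℕ)
    (G : CurveGD k B₀ B₁ B₀₁ A),
    ∃ J : Ideal A, ∀ (A' : Type u) [CommRing A'] [Algebra k A'] (ψ : A →ₐ[k] A')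
      (G' : CurveGD k B₀ B₁ B₀₁ A'), CurveGD.IsBC ψ G G' →
        (P0 x n G' ↔ J.map ψ.toRingHom = ⊤)
  stage1_locus : ∀ {A : Type u} [CommRing A] [Algebra k A] (n : ℕ) {m : ℕ}
    (q : Fin m → (B₀ →ₐ[k] k)) (G : CurveGD k B₀ B₁ B₀₁ A) (_ : P0 x n G),
    ∃ J : Ideal A, ∀ (A' : Type u) [CommRing A'] [Algebra k A'] (ψ : A →ₐ[k] A')
      (G' : CurveGD k B₀ B₁ B₀₁ A'), CurveGD.IsBC ψ G G' →
        (P1 x n q G' ↔ J.map ψ.toRingHom = ⊤)
  stage2_locus : ∀ {A : Type u} [CommRing A] [Algebra k A] (i : ChartIndex k B₀)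
    (_ : i.Numeric B₀₁ y) (G : CurveGD k B₀ B₁ B₀₁ A) (_ : G.Rigidifiable e)
    (_ : G.Deg0) (_ : P1 x i.n i.q G),
    ∃ J : Ideal A, ∀ (A' : Type u) [CommRing A'] [Algebra k A'] (ψ : A →ₐ[k] A')
      (G' : CurveGD k B₀ B₁ B₀₁ A'), CurveGD.IsBC ψ G G' →
        (P2 x y i.n i.q G' ↔ J.map ψ.toRingHom = ⊤)
  stage3_locus : ∀ {A : Type u} [CommRing A] [Algebra k A] (i : ChartIndex k B₀)
    (_ : i.Numeric B₀₁ y) (G : CurveGD k B₀ B₁ B₀₁ A) (_ : G.Rigidifiable e)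
    (_ : G.Deg0) (_ : P2 x y i.n i.q G),
    ∃ J : Ideal A, ∀ (A' : Type u) [CommRing A'] [Algebra k A'] (ψ : A →ₐ[k] A')
      (G' : CurveGD k B₀ B₁ B₀₁ A'), CurveGD.IsBC ψ G G' →
        (P3 x y i.n i.q i.β G' ↔ J.map ψ.toRingHom = ⊤)
  stage4_locus : ∀ {A : Type u} [CommRing A] [Algebra k A] (i : ChartIndex k B₀)
    (_ : i.Numeric B₀₁ y) (G : CurveGD k B₀ B₁ B₀₁ A) (_ : G.Rigidifiable e)
    (_ : G.Deg0) (_ : P3 x y i.n i.q i.β G),
    ∃ J : Ideal A, ∀ (A' : Type u) [CommRing A'] [Algebra k A'] (ψ : A →ₐ[k] A')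
      (G' : CurveGD k B₀ B₁ B₀₁ A'), CurveGD.IsBC ψ G G' →
        (P4 x y i G' ↔ J.map ψ.toRingHom = ⊤)
  pointCond_bc : ∀ {A A' : Type u} [CommRing A] [Algebra k A] [CommRing A'] [Algebra k A']
    (i : ChartIndex k B₀) (_ : i.Numeric B₀₁ y) {G : CurveGD k B₀ B₁ B₀₁ A}
    {G' : CurveGD k B₀ B₁ B₀₁ A'} (ψ : A →ₐ[k] A') (_ : CurveGD.IsBC ψ G G')
    (_ : G.Rigidifiable e) (_ : G.Deg0) {φ₀ : H491.Rβ k i.β →ₐ[k] A}
    (_ : PointCond x y i G φ₀), PointCond x y i G' (ψ.comp φ₀)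
  pointCond_unique : ∀ {A : Type u} [CommRing A] [Algebra k A] (i : ChartIndex k B₀)
    {G : CurveGD k B₀ B₁ B₀₁ A} {φ₀ φ₀' : H491.Rβ k i.β →ₐ[k] A}
    (_ : PointCond x y i G φ₀) (_ : PointCond x y i G φ₀'), φ₀ = φ₀'
  pointCond_iso : ∀ {A : Type u} [CommRing A] [Algebra k A] (i : ChartIndex k B₀)
    {G G' : CurveGD k B₀ B₁ B₀₁ A} {φ₀ : H491.Rβ k i.β →ₐ[k] A}
    (_ : PointCond x y i G φ₀) (_ : PointCond x y i G' φ₀), G.IsIso G'
  exists_good_chart : ∀ (K : Type u) [Field K] [Algebra k K] (G : CurveGD k B₀ B₁ B₀₁ K)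
    (_ : G.Deg0),
    ∃ i : ChartIndex k B₀, i.Numeric B₀₁ y ∧ ∃ D : CurveGD k B₀ B₁ B₀₁ (chartRing i),
      D.Rigidifiable e ∧ D.Deg0 ∧ PointCond x y i D (chartCan i) ∧
        ∃ φ : chartRing i →ₐ[k] K, CurveGD.IsBC φ D G

variable {x y e}

theorem Leaves.gdc (L : Leaves (B₀₁ := B₀₁) x y e) : GDC k B₀ B₁ B₀₁ :=
  ⟨L.gdc_exists, L.gdc_id, L.gdc_comp, L.gdc_cancel⟩

/-! ## The chain of the chart conditions -/

theorem p3_of_p4 {A : Type u} [CommRing A] [Algebra k A] {i : ChartIndex k B₀}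
    {G : CurveGD k B₀ B₁ B₀₁ A} (h : P4 x y i G) : P3 x y i.n i.q i.β G := by
  obtain ⟨φ₀, hφ₀⟩ := h
  obtain ⟨s, hs, hspan⟩ := hφ₀.sect
  exact ⟨hφ₀.p1, s, hs, _, (H491.isChart_univIdeal (k := k) i.β).map φ₀, hspan⟩

theorem p2_of_p3 {A : Type u} [CommRing A] [Algebra k A] {n m g : ℕ}
    {q : Fin m → (B₀ →ₐ[k] k)} {β : Fin g → B₀} {G : CurveGD k B₀ B₁ B₀₁ A}
    (h : P3 x y n q β G) : P2 x y n q G := by
  obtain ⟨h1, s, hs, -⟩ := h
  exact ⟨h1, s, hs⟩

/-- The chart condition `P4` is cut out by an ideal. -/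
theorem hasLocus_p4 (L : Leaves (B₀₁ := B₀₁) x y e) (i : ChartIndex k B₀)
    (hnum : i.Numeric B₀₁ y) {A : Type u} [CommRing A] [Algebra k A]
    (G : CurveGD k B₀ B₁ B₀₁ A) (hrig : G.Rigidifiable e) (hdeg : G.Deg0) :
    HasLocus (fun _ _ _ G' => P4 x y i G') G := by
  have L0 : HasLocus (fun _ _ _ G' => P0 x i.n G') G := L.stage0_locus i.n G
  have L1 : HasLocus (fun _ _ _ G' => P1 x i.n i.q G') G :=
    HasLocus.comp L.gdc G L0 (fun _ _ _ _ G₁ _ h0 => L.stage1_locus i.n i.q G₁ h0)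
      (fun _ _ _ _ h => h.1)
  have L2 : HasLocus (fun _ _ _ G' => P2 x y i.n i.q G') G :=
    HasLocus.comp L.gdc G L1
      (fun _ _ _ _ G₁ hbc h1 =>
        L.stage2_locus i hnum G₁ (L.gdc_rig hbc hrig) (L.gdc_deg0 hbc hdeg) h1)
      (fun _ _ _ _ h => h.1)
  have L3 : HasLocus (fun _ _ _ G' => P3 x y i.n i.q i.β G') G :=
    HasLocus.comp L.gdc G L2
      (fun _ _ _ _ G₁ hbc h2 =>
        L.stage3_locus i hnum G₁ (L.gdc_rig hbc hrig) (L.gdc_deg0 hbc hdeg) h2)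
      (fun _ _ _ _ h => p2_of_p3 h)
  exact HasLocus.comp L.gdc G L3
      (fun _ _ _ _ G₁ hbc h3 =>
        L.stage4_locus i hnum G₁ (L.gdc_rig hbc hrig) (L.gdc_deg0 hbc hdeg) h3)
      (fun _ _ _ _ h => p3_of_p4 h)

/-! ## The chart family -/

/-- Two maps out of a chart ring which agree on `Rβ` are equal. -/
theorem chartRing_hom_ext {A : Type u} [CommRing A] [Algebra k A] (i : ChartIndex k B₀)
    {φ ψ : chartRing i →ₐ[k] A} (h : φ.comp (chartCan i) = ψ.comp (chartCan i)) : φ = ψ := by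
  apply AlgHom.coe_ringHom_injective
  apply IsLocalization.ringHom_ext (Submonoid.powers i.f)
  exact RingHom.ext fun r => AlgHom.congr_fun h r

omit [Algebra k B₀₁] [IsScalarTower k B₀ B₀₁] [IsScalarTower k B₁ B₀₁] in
/-- The chart rings are finitely generated. -/
theorem finiteType_chartRing (hC : IsCurveChart k B₀ B₁ B₀₁ x y e) (i : ChartIndex k B₀) :
    Algebra.FiniteType k (chartRing i) := by
  have hB : Algebra.FiniteType k B₀ := by
    have h1 : ((Polynomial.aeval x : Polynomial k →ₐ[k] B₀).toRingHom).FiniteType :=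
      RingHom.Finite.finiteType hC.finite₀
    have h2 : (algebraMap k (Polynomial k)).FiniteType :=
      RingHom.finiteType_algebraMap.mpr inferInstance
    have h3 := RingHom.FiniteType.comp h1 h2
    have h4 : ((Polynomial.aeval x : Polynomial k →ₐ[k] B₀).toRingHom).comp
        (algebraMap k (Polynomial k)) = algebraMap k B₀ := by
      ext a
      simp
    rw [h4] at h3
    exact RingHom.finiteType_algebraMap.mp h3
  haveI : Algebra.FiniteType k (H491.Rβ k i.β) := H491.finiteType_Rβ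
  haveI : Algebra.FinitePresentation (H491.Rβ k i.β) (chartRing i) :=
    IsLocalization.Away.finitePresentation i.f
  haveI : Algebra.FiniteType (H491.Rβ k i.β) (chartRing i) :=
    Algebra.FiniteType.of_finitePresentation
  exact Algebra.FiniteType.trans (S := H491.Rβ k i.β) inferInstance inferInstance

variable (x y e) in
/-- The index set of the chart family: the numeric good chart indices. -/
abbrev Idx (B₀₁ : Type u) [CommRing B₀₁] [Algebra k B₀₁] [Algebra B₀ B₀₁] [Algebra B₁ B₀₁]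
    [IsScalarTower k B₀ B₀₁] [IsScalarTower k B₁ B₀₁] : Type u :=
  {i : ChartIndex k B₀ // i.Numeric B₀₁ y ∧ i.Good (B₀₁ := B₀₁) x y e}

/-- The universal datum of a good chart. -/
def udatum (i : Idx x y e B₀₁) : CurveGD k B₀ B₁ B₀₁ (chartRing i.1) :=
  Classical.choose i.2.2

theorem udatum_rig (i : Idx x y e B₀₁) : (udatum i).Rigidifiable e :=
  (Classical.choose_spec i.2.2).1

theorem udatum_deg0 (i : Idx x y e B₀₁) : (udatum i).Deg0 :=
  (Classical.choose_spec i.2.2).2.1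

theorem udatum_pointCond (i : Idx x y e B₀₁) : PointCond x y i.1 (udatum i) (chartCan i.1) :=
  (Classical.choose_spec i.2.2).2.2

/-- A datum lies in the chart `i` iff it satisfies the chart condition `P4`. -/
theorem inChart_iff_p4 (L : Leaves (B₀₁ := B₀₁) x y e) (i : Idx x y e B₀₁) {A : Type u}
    [CommRing A] [Algebra k A] (G : CurveGD k B₀ B₁ B₀₁ A) :
    (∃ φ : chartRing i.1 →ₐ[k] A, CurveGD.IsBC φ (udatum i) G) ↔ P4 x y i.1 G := by
  constructor
  · rintro ⟨φ, hφ⟩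
    exact ⟨φ.comp (chartCan i.1),
      L.pointCond_bc i.1 i.2.1 φ hφ (udatum_rig i) (udatum_deg0 i) (udatum_pointCond i)⟩
  · rintro ⟨φ₀, hφ₀⟩
    obtain ⟨φ, hφ⟩ := exists_lift_away i.1.f φ₀ hφ₀.unit
    obtain ⟨G'', hG''⟩ := L.gdc_exists φ (udatum i)
    have h1 : PointCond x y i.1 G'' (φ.comp (chartCan i.1)) :=
      L.pointCond_bc i.1 i.2.1 φ hG'' (udatum_rig i) (udatum_deg0 i) (udatum_pointCond i)
    have h2 : φ.comp (chartCan i.1) = φ₀ := hφ
    rw [h2] at h1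
    exact ⟨φ, L.gdc.of_isIso hG'' (L.pointCond_iso i.1 h1 hφ₀)⟩

/-- The charts are monomorphisms. -/
theorem udatum_inj (L : Leaves (B₀₁ := B₀₁) x y e) (i : Idx x y e B₀₁) {A : Type u}
    [CommRing A] [Algebra k A] (φ ψ : chartRing i.1 →ₐ[k] A) (G G' : CurveGD k B₀ B₁ B₀₁ A)
    (hφ : CurveGD.IsBC φ (udatum i) G) (hψ : CurveGD.IsBC ψ (udatum i) G')
    (hiso : G.IsIso G') : φ = ψ := by
  have h1 : PointCond x y i.1 G' (φ.comp (chartCan i.1)) :=
    L.pointCond_bc i.1 i.2.1 φ (L.gdc.of_isIso hφ hiso) (udatum_rig i) (udatum_deg0 i)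
      (udatum_pointCond i)
  have h2 : PointCond x y i.1 G' (ψ.comp (chartCan i.1)) :=
    L.pointCond_bc i.1 i.2.1 ψ hψ (udatum_rig i) (udatum_deg0 i) (udatum_pointCond i)
  exact chartRing_hom_ext i.1 (L.pointCond_unique i.1 h1 h2)

/-- The chart loci cover. -/
theorem iSup_locus_eq_top (L : Leaves (B₀₁ := B₀₁) x y e) {A : Type u} [CommRing A]
    [Algebra k A] (G : CurveGD k B₀ B₁ B₀₁ A) (hdeg : G.Deg0) (I : Idx x y e B₀₁ → Ideal A)
    (hI : ∀ (i : Idx x y e B₀₁) (A' : Type u) [CommRing A'] [Algebra k A'] (ψ : A →ₐ[k] A')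
      (G' : CurveGD k B₀ B₁ B₀₁ A'), CurveGD.IsBC ψ G G' →
        (P4 x y i.1 G' ↔ (I i).map ψ.toRingHom = ⊤)) :
    (⨆ i, I i) = ⊤ := by
  by_contra hne
  obtain ⟨m, hm, hle⟩ := Ideal.exists_le_maximal _ hne
  letI : Field (A ⧸ m) := Ideal.Quotient.field m
  obtain ⟨GK, hGK⟩ := L.gdc_exists (Ideal.Quotient.mkₐ k m) G
  obtain ⟨i, hnum, D, hDrig, hDdeg, hDpc, φ, hφ⟩ :=
    L.exists_good_chart (A ⧸ m) GK (L.gdc_deg0 hGK hdeg)
  let j : Idx x y e B₀₁ := ⟨i, hnum, D, hDrig, hDdeg, hDpc⟩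
  have h4 : P4 x y i GK := ⟨φ.comp (chartCan i), L.pointCond_bc i hnum φ hφ hDrig hDdeg hDpc⟩
  have h5 : (I j).map (Ideal.Quotient.mkₐ k m).toRingHom = ⊤ := (hI j _ _ GK hGK).1 h4
  have h6 := map_mk_ne_top (I j) (AlgHom.id k A) m hm (by
    have : (I j).map (RingHom.id A) ≤ m := by
      rw [Ideal.map_id]
      exact (le_iSup I j).trans hle
    exact this)
  rw [AlgHom.comp_id] at h6
  exact h6 h5

/-- The chart family of the algebraic Picard functor. -/
def family (hC : IsCurveChart k B₀ B₁ B₀₁ x y e) (L : Leaves (B₀₁ := B₀₁) x y e) :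
    AlgChartFamily k B₀ B₁ B₀₁ e where
  ι := Idx x y e B₀₁
  R := fun i => chartRing i.1
  finiteType := fun i => finiteType_chartRing hC i.1
  datum := fun i => udatum i
  rig := fun i => udatum_rig i
  deg0 := fun i => udatum_deg0 i
  inj := fun i _ _ _ φ ψ G G' hφ hψ hiso => udatum_inj L i φ ψ G G' hφ hψ hiso
  locus := by
    intro A _ _ G hrig hdeg
    have hL : ∀ i : Idx x y e B₀₁, HasLocus (fun _ _ _ G' => P4 x y i.1 G') G :=
      fun i => hasLocus_p4 L i.1 i.2.1 G hrig hdeg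
    choose I hI using hL
    refine ⟨I, iSup_locus_eq_top L G hdeg I hI, ?_⟩
    intro i A' _ _ ψ G' hbc
    rw [inChart_iff_p4 L i G']
    exact hI i A' ψ G' hbc

/-- **ALGCHARTS (TOP)**: the chart family exists, given the leaves of the skeleton. -/
theorem algCharts_of_leaves (hC : IsCurveChart k B₀ B₁ B₀₁ x y e)
    (L : Leaves (B₀₁ := B₀₁) x y e) : Nonempty (AlgChartFamily k B₀ B₁ B₀₁ e) :=
  ⟨family hC L⟩

/-- `Stmt.AlgCharts` from the leaves for every curve chart. -/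
theorem stmt_algCharts_of_leaves
    (L : ∀ (x : B₀) (y : B₁) (e : B₁ →ₐ[k] k), IsCurveChart k B₀ B₁ B₀₁ x y e →
      Leaves (B₀₁ := B₀₁) x y e) :
    Stmt.AlgCharts k B₀ B₁ B₀₁ :=
  fun x y e hC => algCharts_of_leaves hC (L x y e hC)

end Top

end

end Fermat.Agent.S25.H191.ACTop
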