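import Mathlib

set_option autoImplicit false
universe w u
open CategoryTheory AlgebraicGeometry Opposite Limits

namespace Fermat.Agent.S25.H191

noncomputable section

/-- Abstract affine charts of a presheaf on schemes. -/
structure AbsCharts (G : Scheme.{u}ᵒᵖ ⥤ Type w) where
  ι : Type u
  X : ι → Scheme.{u}
  u : ∀ i, G.obj (op (X i))
  inj : ∀ (i : ι) (R : CommRingCat.{u}) (g g' : Spec R ⟶ X i),
    G.map g.op (u i) = G.map g'.op (u i) → g = g'
  locus : ∀ (R : CommRingCat.{u}) (x : G.obj (op (Spec R))),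
    ∃ V : ι → (Spec R).Opens, (⨆ i, V i) = ⊤ ∧
      ∀ (i : ι) (R' : CommRingCat.{u}) (a : Spec R' ⟶ Spec R),
        (∃ g : Spec R' ⟶ X i, G.map g.op (u i) = G.map a.op x) ↔ ∀ y : Spec R', a y ∈ V i

variable {G : Scheme.{u}ᵒᵖ ⥤ Type w}

lemma map_comp_apply' {T T' T'' : Scheme.{u}} (a : T' ⟶ T) (b : T'' ⟶ T') (x : G.obj (op T)) :
    G.map (b ≫ a).op x = G.map b.op (G.map a.op x) := by
  rw [op_comp, G.map_comp]; rfl

lemma map_id_apply' {T : Scheme.{u}} (x : G.obj (op T)) :
    G.map (𝟙 T).op x = x := by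
  rw [op_id, G.map_id]; rfl

lemma sheafFor_of_isSheaf (hG : Presieve.IsSheaf Scheme.zariskiTopology G) {T : Scheme.{u}}
    (𝒰 : T.OpenCover) : Presieve.IsSheafFor G (Presieve.ofArrows 𝒰.X 𝒰.f) := by
  rw [Scheme.zariskiTopology, Scheme.grothendieckTopology,
    Precoverage.isSheaf_toGrothendieck_iff_of_isStableUnderBaseChange] at hG
  exact hG _ 𝒰.mem₀

lemma sep_of_isSheaf (hG : Presieve.IsSheaf Scheme.zariskiTopology G) {T : Scheme.{u}}
    (𝒰 : T.OpenCover) (x y : G.obj (op T))
    (h : ∀ j, G.map (𝒰.f j).op x = G.map (𝒰.f j).op y) : x = y := by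
  have h1 := (Presieve.isSheafFor_arrows_iff G 𝒰.f).1 (sheafFor_of_isSheaf hG 𝒰)
    (fun j => G.map (𝒰.f j).op x) (by
      intro i j Z gi gj hij
      rw [← map_comp_apply', ← map_comp_apply', hij])
  exact h1.unique (fun _ => rfl) (fun j => (h j).symm)

lemma glue_of_isSheaf (hG : Presieve.IsSheaf Scheme.zariskiTopology G) {T : Scheme.{u}}
    (𝒰 : T.OpenCover) (x : ∀ j, G.obj (op (𝒰.X j)))
    (hx : Presieve.Arrows.Compatible G 𝒰.f x) :
    ∃ x₀ : G.obj (op T), ∀ j, G.map (𝒰.f j).op x₀ = x j :=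
  ((Presieve.isSheafFor_arrows_iff G 𝒰.f).1 (sheafFor_of_isSheaf hG 𝒰) x hx).exists

namespace AbsCharts

variable (C : AbsCharts G)

lemma inj_affine (i : C.ι) {Y : Scheme.{u}} [IsAffine Y]
    (g g' : Y ⟶ C.X i) (h : G.map g.op (C.u i) = G.map g'.op (C.u i)) : g = g' := by
  have := C.inj i _ (Y.isoSpec.inv ≫ g) (Y.isoSpec.inv ≫ g')
    (by rw [map_comp_apply', map_comp_apply', h])
  exact (cancel_epi _).1 this

/-- Injectivity of chart classifying maps for arbitrary test schemes. -/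
lemma inj_all (i : C.ι) {T : Scheme.{u}} (g g' : T ⟶ C.X i)
    (h : G.map g.op (C.u i) = G.map g'.op (C.u i)) : g = g' := by
  refine T.affineCover.hom_ext _ _ fun j => ?_
  refine C.inj_affine i _ _ ?_
  rw [map_comp_apply', map_comp_apply', h]

/-- The element `x` lies in the `i`-th chart. -/
def InChart (i : C.ι) {T : Scheme.{u}} (x : G.obj (op T)) : Prop :=
  ∃ g : T ⟶ C.X i, G.map g.op (C.u i) = x

variable {C}

lemma InChart.map {i : C.ι} {T T' : Scheme.{u}} {x : G.obj (op T)} (h : C.InChart i x)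
    (a : T' ⟶ T) : C.InChart i (G.map a.op x) := by
  obtain ⟨g, rfl⟩ := h
  exact ⟨a ≫ g, map_comp_apply' _ _ _⟩

/-- Being in a chart is Zariski-local. -/
lemma InChart.of_cover (hG : Presieve.IsSheaf Scheme.zariskiTopology G) {i : C.ι}
    {T : Scheme.{u}} (𝒰 : T.OpenCover) {x : G.obj (op T)}
    (h : ∀ j, C.InChart i (G.map (𝒰.f j).op x)) : C.InChart i x := by
  choose g hg using h
  have hcompat : ∀ j j', pullback.fst (𝒰.f j) (𝒰.f j') ≫ g j = pullback.snd _ _ ≫ g j' := by
    intro j j'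
    apply C.inj_all
    rw [map_comp_apply', map_comp_apply', hg, hg, ← map_comp_apply', ← map_comp_apply',
      pullback.condition]
  refine ⟨𝒰.glueMorphisms g hcompat, ?_⟩
  refine sep_of_isSheaf hG 𝒰 _ _ fun j => ?_
  rw [← map_comp_apply', 𝒰.ι_glueMorphisms, hg]

/-- The chart locus on an affine scheme, tested against affine schemes. -/
lemma locus_affine_affine (C : AbsCharts G) {Y : Scheme.{u}} [IsAffine Y] (x : G.obj (op Y)) :
    ∃ V : C.ι → Y.Opens, (⨆ i, V i) = ⊤ ∧
      ∀ (i : C.ι) (Y' : Scheme.{u}) [IsAffine Y'] (a : Y' ⟶ Y),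
        C.InChart i (G.map a.op x) ↔ ∀ y : Y', a y ∈ V i := by
  obtain ⟨V₀, hV₀, h₀⟩ := C.locus _ (G.map Y.isoSpec.inv.op x)
  refine ⟨fun i => Y.isoSpec.hom ⁻¹ᵁ V₀ i, ?_, ?_⟩
  · rw [← Scheme.Hom.preimage_iSup, hV₀]; rfl
  · intro i Y' _ a
    have key := h₀ i _ (Y'.isoSpec.inv ≫ a ≫ Y.isoSpec.hom)
    have e1 : G.map (Y'.isoSpec.inv ≫ a ≫ Y.isoSpec.hom).op (G.map Y.isoSpec.inv.op x) =
        G.map Y'.isoSpec.inv.op (G.map a.op x) := by
      rw [← map_comp_apply', ← map_comp_apply']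
      congr 2
      simp
    rw [e1] at key
    constructor
    · intro h y
      have h1 := key.1 (h.map Y'.isoSpec.inv) (Y'.isoSpec.hom y)
      simpa [Scheme.Hom.comp_apply] using h1
    · intro h
      have h1 : C.InChart i (G.map Y'.isoSpec.inv.op (G.map a.op x)) := by
        refine key.2 fun y => ?_
        have := h (Y'.isoSpec.inv y)
        simpa [Scheme.Hom.comp_apply] using this
      have h2 := h1.map Y'.isoSpec.hom
      rwa [← map_comp_apply', Iso.hom_inv_id, map_id_apply'] at h2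

/-- The chart locus on an affine scheme, tested against all schemes. -/
lemma locus_affine (hG : Presieve.IsSheaf Scheme.zariskiTopology G) (C : AbsCharts G)
    {Y : Scheme.{u}} [IsAffine Y] (x : G.obj (op Y)) :
    ∃ V : C.ι → Y.Opens, (⨆ i, V i) = ⊤ ∧
      ∀ (i : C.ι) (T' : Scheme.{u}) (a : T' ⟶ Y),
        C.InChart i (G.map a.op x) ↔ ∀ y : T', a y ∈ V i := by
  obtain ⟨V, hV, h⟩ := C.locus_affine_affine x
  refine ⟨V, hV, fun i T' a => ⟨fun hin y => ?_, fun hy => ?_⟩⟩
  · obtain ⟨j, y', rfl⟩ := T'.affineCover.exists_eq y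
    have h1 := (h i _ (T'.affineCover.f j ≫ a)).1 (by
      rw [map_comp_apply']; exact hin.map _) y'
    simpa [Scheme.Hom.comp_apply] using h1
  · refine InChart.of_cover hG T'.affineCover fun j => ?_
    rw [← map_comp_apply']
    refine (h i _ (T'.affineCover.f j ≫ a)).2 fun y' => ?_
    simpa [Scheme.Hom.comp_apply] using hy (T'.affineCover.f j y')

/-- The open cover of an open subscheme `V` by smaller opens. -/
def coverOfLE {T : Scheme.{u}} (V : T.Opens) {J : Type u} (W : J → T.Opens)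
    (hle : ∀ j, W j ≤ V) (hcov : V ≤ ⨆ j, W j) : Scheme.OpenCover.{u} (V : Scheme.{u}) where
  I₀ := J
  X j := (W j : Scheme.{u})
  f j := T.homOfLE (hle j)
  mem₀ := by
    rw [Scheme.presieve₀_mem_precoverage_iff]
    refine ⟨fun p => ?_, inferInstance⟩
    have hp : p.1 ∈ ⨆ j, W j := hcov p.2
    rw [TopologicalSpace.Opens.mem_iSup] at hp
    obtain ⟨j, hj⟩ := hp
    refine ⟨j, ⟨p.1, hj⟩, ?_⟩
    exact Scheme.homOfLE_apply' (hle j) p.1 hj

/-- The chart locus of `x ∈ G(T)`: the union of all opens over which `x` lies in chart `i`. -/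
def locusOpen (C : AbsCharts G) (i : C.ι) {T : Scheme.{u}} (x : G.obj (op T)) : T.Opens :=
  ⨆ W : {W : T.Opens // C.InChart i (G.map W.ι.op x)}, W.1

lemma le_locusOpen (C : AbsCharts G) (i : C.ι) {T : Scheme.{u}} (x : G.obj (op T))
    (W : T.Opens) (hW : C.InChart i (G.map W.ι.op x)) : W ≤ C.locusOpen i x :=
  le_iSup (fun W : {W : T.Opens // C.InChart i (G.map W.ι.op x)} => W.1) ⟨W, hW⟩

lemma inChart_locusOpen (hG : Presieve.IsSheaf Scheme.zariskiTopology G) (C : AbsCharts G)
    (i : C.ι) {T : Scheme.{u}} (x : G.obj (op T)) :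
    C.InChart i (G.map (C.locusOpen i x).ι.op x) := by
  refine InChart.of_cover hG (coverOfLE (C.locusOpen i x)
    (fun W : {W : T.Opens // C.InChart i (G.map W.ι.op x)} => W.1)
    (fun W => C.le_locusOpen i x W.1 W.2) le_rfl) ?_
  rintro ⟨W, hW⟩
  have h1 : T.homOfLE (C.le_locusOpen i x W hW) ≫ (C.locusOpen i x).ι = W.ι :=
    Scheme.homOfLE_ι _ _
  change C.InChart i (G.map (T.homOfLE (C.le_locusOpen i x W hW)).op _)
  rw [← map_comp_apply', h1]
  exact hW

/-- The image of the affine chart locus under an open immersion lies in the chart locus. -/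
lemma image_le_locusOpen (C : AbsCharts G)
    (i : C.ι) {T Y : Scheme.{u}} (x : G.obj (op T)) (b : Y ⟶ T) [IsOpenImmersion b]
    (V : Y.Opens) (hV : ∀ (T' : Scheme.{u}) (a : T' ⟶ Y),
        C.InChart i (G.map a.op (G.map b.op x)) ↔ ∀ y : T', a y ∈ V) :
    b ''ᵁ V ≤ C.locusOpen i x := by
  refine C.le_locusOpen i x _ ?_
  have hr : Set.range (b ''ᵁ V).ι ⊆ Set.range b := by
    rintro _ ⟨⟨z, hz⟩, rfl⟩
    obtain ⟨y, -, rfl⟩ := hz
    exact ⟨y, rfl⟩
  have hfac : IsOpenImmersion.lift b (b ''ᵁ V).ι hr ≫ b = (b ''ᵁ V).ι :=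
    IsOpenImmersion.lift_fac _ _ _
  rw [← hfac, map_comp_apply']
  refine (hV _ _).2 fun y => ?_
  obtain ⟨y', hy', hy''⟩ := y.2
  have h1 : b (IsOpenImmersion.lift b (b ''ᵁ V).ι hr y) = b y' := by
    rw [← Scheme.Hom.comp_apply, hfac]
    exact hy''.symm
  have h2 := b.isOpenEmbedding.injective h1
  rw [h2]
  exact hy'

/-- Universal property of the chart locus. -/
lemma inChart_iff_locusOpen (hG : Presieve.IsSheaf Scheme.zariskiTopology G) (C : AbsCharts G)
    (i : C.ι) {T T' : Scheme.{u}} (x : G.obj (op T)) (a : T' ⟶ T) :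
    C.InChart i (G.map a.op x) ↔ ∀ y : T', a y ∈ C.locusOpen i x := by
  constructor
  · intro h y
    obtain ⟨j, z', hz'⟩ := T.affineCover.exists_eq (a y)
    obtain ⟨V, -, hV⟩ := C.locus_affine hG (G.map (T.affineCover.f j).op x)
    obtain ⟨y', hy'1, hy'2⟩ := Scheme.Pullback.exists_preimage_pullback
      (f := a) (g := T.affineCover.f j) y z' hz'.symm
    have h1 : C.InChart i (G.map (pullback.snd a (T.affineCover.f j)).op
        (G.map (T.affineCover.f j).op x)) := by
      rw [← map_comp_apply', ← pullback.condition, map_comp_apply']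
      exact h.map _
    have h2 := (hV i _ _).1 h1 y'
    rw [hy'2] at h2
    have h3 := C.image_le_locusOpen i x (T.affineCover.f j) (V i) (hV i)
    rw [← hz']
    exact h3 ⟨z', h2, rfl⟩
  · intro h
    have hr : Set.range a ⊆ Set.range (C.locusOpen i x).ι := by
      rintro _ ⟨y, rfl⟩
      exact ⟨⟨a y, h y⟩, rfl⟩
    have hfac : IsOpenImmersion.lift (C.locusOpen i x).ι a hr ≫ (C.locusOpen i x).ι = a :=
      IsOpenImmersion.lift_fac _ _ _
    rw [← hfac, map_comp_apply']
    exact (C.inChart_locusOpen hG i x).map _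

/-- The chart loci cover. -/
lemma iSup_locusOpen (hG : Presieve.IsSheaf Scheme.zariskiTopology G) (C : AbsCharts G)
    {T : Scheme.{u}} (x : G.obj (op T)) : (⨆ i, C.locusOpen i x) = ⊤ := by
  rw [eq_top_iff]
  rintro z -
  obtain ⟨j, z', hz'⟩ := T.affineCover.exists_eq z
  obtain ⟨V, hVtop, hV⟩ := C.locus_affine hG (G.map (T.affineCover.f j).op x)
  have hz'' : z' ∈ ⨆ i, V i := by rw [hVtop]; trivial
  rw [TopologicalSpace.Opens.mem_iSup] at hz''
  obtain ⟨i, hi⟩ := hz''
  have h3 := C.image_le_locusOpen i x (T.affineCover.f j) (V i) (hV i)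
  rw [← hz']
  exact TopologicalSpace.Opens.mem_iSup.2 ⟨i, h3 ⟨z', hi, rfl⟩⟩

/-- The set of local classifying maps of `x`. -/
def classifying (C : AbsCharts G) {T : Scheme.{u}} (x : G.obj (op T)) :
    Set (Σ (i : C.ι) (W : T.Opens), ((W : Scheme.{u}) ⟶ C.X i)) :=
  {p | G.map p.2.2.op (C.u p.1) = G.map p.2.1.ι.op x}

lemma classifying_injective (hG : Presieve.IsSheaf Scheme.zariskiTopology G) (C : AbsCharts G)
    (T : Scheme.{u}) : Function.Injective (C.classifying (T := T)) := by
  intro x y hxy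
  refine sep_of_isSheaf hG (T.openCoverOfIsOpenCover (fun i => C.locusOpen i x)
    (.mk (C.iSup_locusOpen hG x))) x y fun i => ?_
  obtain ⟨g, hg⟩ := C.inChart_locusOpen hG i x
  have h1 : (⟨i, C.locusOpen i x, g⟩ :
      Σ (i : C.ι) (W : T.Opens), ((W : Scheme.{u}) ⟶ C.X i)) ∈ C.classifying x := hg
  rw [hxy] at h1
  exact hg.symm.trans h1

lemma small_obj (hG : Presieve.IsSheaf Scheme.zariskiTopology G) (C : AbsCharts G)
    (T : Scheme.{u}) : Small.{u} (G.obj (op T)) :=
  small_of_injective (C.classifying_injective hG T)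

lemma functorSmall (hG : Presieve.IsSheaf Scheme.zariskiTopology G) (C : AbsCharts G) :
    FunctorToTypes.Small.{u} G := fun X => C.small_obj hG X.unop

end AbsCharts

section Shrink

variable [FunctorToTypes.Small.{u} G]

lemma shrink_map_equivShrink {T T' : Scheme.{u}} (a : T' ⟶ T) (x : G.obj (op T)) :
    (FunctorToTypes.shrink.{u} G).map a.op (equivShrink.{u} _ x) =
      equivShrink.{u} _ (G.map a.op x) := by
  simp [FunctorToTypes.shrink]

lemma shrink_map_eq {T T' : Scheme.{u}} (a : T' ⟶ T)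
    (x : (FunctorToTypes.shrink.{u} G).obj (op T)) :
    (FunctorToTypes.shrink.{u} G).map a.op x =
      equivShrink.{u} _ (G.map a.op ((equivShrink.{u} _).symm x)) := by
  simp [FunctorToTypes.shrink]

lemma isSheaf_shrink (hG : Presieve.IsSheaf Scheme.zariskiTopology G) :
    Presieve.IsSheaf Scheme.zariskiTopology (FunctorToTypes.shrink.{u} G) :=
  Presieve.isSheaf_of_nat_equiv (fun X => equivShrink.{u} (G.obj (op X)))
    (fun _ _ f x => (shrink_map_equivShrink f x).symm) hG

/-- The shrunk sheaf. -/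
def shrinkSheaf (hG : Presieve.IsSheaf Scheme.zariskiTopology G) :
    Sheaf Scheme.zariskiTopology.{u} (Type u) :=
  ⟨FunctorToTypes.shrink.{u} G, (isSheaf_iff_isSheaf_of_type _ _).2 (isSheaf_shrink hG)⟩

/-- The chart maps into the shrunk presheaf. -/
def chartMap (C : AbsCharts G) (i : C.ι) :
    yoneda.obj (C.X i) ⟶ FunctorToTypes.shrink.{u} G :=
  yonedaEquiv.symm (equivShrink.{u} _ (C.u i))

lemma chartMap_app (C : AbsCharts G) (i : C.ι) {T : Scheme.{u}} (a : T ⟶ C.X i) :
    (chartMap C i).app (op T) a = equivShrink.{u} _ (G.map a.op (C.u i)) := by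
  change (FunctorToTypes.shrink.{u} G).map a.op (equivShrink.{u} _ (C.u i)) = _
  rw [shrink_map_equivShrink]

lemma app_eq_equivShrink {T : Scheme.{u}} (g : yoneda.obj T ⟶ FunctorToTypes.shrink.{u} G)
    {Z : Scheme.{u}} (c : Z ⟶ T) :
    g.app (op Z) c =
      equivShrink.{u} _ (G.map c.op ((equivShrink.{u} _).symm (yonedaEquiv g))) := by
  rw [← map_yonedaEquiv, shrink_map_eq]

lemma chartMap_presheaf (hG : Presieve.IsSheaf Scheme.zariskiTopology G) (C : AbsCharts G)
    (i : C.ι) : IsOpenImmersion.presheaf (chartMap C i) := by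
  refine MorphismProperty.relative.of_exists fun T g => ?_
  obtain ⟨γ, hγ⟩ := C.inChart_locusOpen hG i ((equivShrink.{u} _).symm (yonedaEquiv g))
  refine ⟨(C.locusOpen i ((equivShrink.{u} _).symm (yonedaEquiv g)) : Scheme.{u}),
    yoneda.map γ, (C.locusOpen i ((equivShrink.{u} _).symm (yonedaEquiv g))).ι, ?_,
    inferInstance⟩
  refine IsPullback.of_forall_isPullback_app fun Z => ?_
  rcases Z with ⟨Z⟩
  rw [Types.isPullback_iff]
  refine ⟨?_, ?_, ?_⟩
  · ext h
    change (chartMap C i).app (op Z) (h ≫ γ) = g.app (op Z) (h ≫ _)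
    rw [chartMap_app, app_eq_equivShrink, map_comp_apply', map_comp_apply', hγ]
  · rintro h₁ h₂ ⟨-, e2⟩
    exact (cancel_mono (C.locusOpen i ((equivShrink.{u} _).symm (yonedaEquiv g))).ι).1 e2
  · intro (a : Z ⟶ C.X i) (c : Z ⟶ T) hac
    rw [chartMap_app, app_eq_equivShrink] at hac
    have hac' := (equivShrink.{u} _).injective hac
    have hin : C.InChart i (G.map c.op ((equivShrink.{u} _).symm (yonedaEquiv g))) := ⟨a, hac'⟩
    have hy := (C.inChart_iff_locusOpen hG i _ c).1 hin
    have hr : Set.range c ⊆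
        Set.range (C.locusOpen i ((equivShrink.{u} _).symm (yonedaEquiv g))).ι := by
      rintro _ ⟨y, rfl⟩
      exact ⟨⟨c y, hy y⟩, rfl⟩
    have hfac : IsOpenImmersion.lift
        (C.locusOpen i ((equivShrink.{u} _).symm (yonedaEquiv g))).ι c hr ≫
        (C.locusOpen i ((equivShrink.{u} _).symm (yonedaEquiv g))).ι = c :=
      IsOpenImmersion.lift_fac _ _ _
    refine ⟨IsOpenImmersion.lift _ c hr, ?_, hfac⟩
    change IsOpenImmersion.lift _ c hr ≫ γ = a
    apply C.inj_all
    rw [map_comp_apply', hγ, ← map_comp_apply', hfac, hac']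

lemma desc_app_ι (C : AbsCharts G) {Z : Scheme.{u}} (i : C.ι) (γ : Z ⟶ C.X i) :
    (Sigma.desc (chartMap C)).app (op Z)
      ((Sigma.ι (fun i => yoneda.obj (C.X i)) i).app (op Z) γ) =
      equivShrink.{u} _ (G.map γ.op (C.u i)) := by
  rw [← chartMap_app, ← Sigma.ι_desc (chartMap C) i]
  rfl

lemma mem_imageSieve_desc (hG : Presieve.IsSheaf Scheme.zariskiTopology G)
    (C : AbsCharts G) {T : Scheme.{u}} (s : (FunctorToTypes.shrink.{u} G).obj (op T))
    (i : C.ι) :
    (Presheaf.imageSieve (Sigma.desc (chartMap C)) s).arrows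
      (C.locusOpen i ((equivShrink.{u} _).symm s)).ι := by
  obtain ⟨γ, hγ⟩ := C.inChart_locusOpen hG i ((equivShrink.{u} _).symm s)
  refine ⟨(Sigma.ι (fun i => yoneda.obj (C.X i)) i).app
    (op (C.locusOpen i ((equivShrink.{u} _).symm s) : Scheme.{u})) γ, ?_⟩
  refine (desc_app_ι C i γ).trans ?_
  rw [hγ, shrink_map_eq]

lemma isLocallySurjective_desc (hG : Presieve.IsSheaf Scheme.zariskiTopology G)
    (C : AbsCharts G) :
    Presheaf.IsLocallySurjective Scheme.zariskiTopology (Sigma.desc (chartMap C)) := by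
  constructor
  intro T s
  refine Scheme.zariskiTopology.superset_covering ?_
    (T.openCoverOfIsOpenCover (fun i => C.locusOpen i ((equivShrink.{u} _).symm s))
      (.mk (C.iSup_locusOpen hG _))).mem_grothendieckTopology
  rw [Sieve.ofArrows, Sieve.generate_le_iff]
  rintro _ _ ⟨i⟩
  exact mem_imageSieve_desc hG C s i

end Shrink

section Final

variable [FunctorToTypes.Small.{u} G]

/-- The chart maps, with codomain the underlying presheaf of the shrunk sheaf. -/
def chartMapS (hG : Presieve.IsSheaf Scheme.zariskiTopology G) (C : AbsCharts G) (i : C.ι) :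
    yoneda.obj (C.X i) ⟶ (shrinkSheaf hG).1 :=
  chartMap C i

lemma chartMapS_presheaf (hG : Presieve.IsSheaf Scheme.zariskiTopology G) (C : AbsCharts G)
    (i : C.ι) : IsOpenImmersion.presheaf (chartMapS hG C i) :=
  chartMap_presheaf hG C i

lemma isLocallySurjective_descS (hG : Presieve.IsSheaf Scheme.zariskiTopology G)
    (C : AbsCharts G) :
    Presheaf.IsLocallySurjective Scheme.zariskiTopology (Sigma.desc (chartMapS hG C)) :=
  isLocallySurjective_desc hG C

lemma exists_representing_of_representableBy (C : AbsCharts G) {J : Scheme.{u}}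
    (R : (FunctorToTypes.shrink.{u} G).RepresentableBy J) (j : ∀ i, C.X i ⟶ J)
    (hj : ∀ i, IsOpenImmersion (j i)) (hsurj : ∀ p : J, ∃ i, p ∈ Set.range (j i))
    (hR0 : ∀ i, R.homEquiv (j i) = equivShrink.{u} _ (C.u i)) :
    ∃ (J : Scheme.{u}) (univ : G.obj (op J)) (j : ∀ i, C.X i ⟶ J),
      (∀ i, IsOpenImmersion (j i)) ∧ (∀ p : J, ∃ i, p ∈ Set.range (j i)) ∧
      (∀ i, G.map (j i).op univ = C.u i) ∧
      ∀ (T : Scheme.{u}) (x : G.obj (op T)), ∃! g : T ⟶ J, G.map g.op univ = x := by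
  have hR : ∀ {T : Scheme.{u}} (g : T ⟶ J),
      R.homEquiv g = equivShrink.{u} _ (G.map g.op
        ((equivShrink.{u} _).symm (R.homEquiv (𝟙 _)))) := by
    intro T g
    have := R.homEquiv_comp g (𝟙 _)
    rw [Category.comp_id] at this
    rw [this]
    exact shrink_map_eq g _
  refine ⟨J, (equivShrink.{u} _).symm (R.homEquiv (𝟙 _)), j, hj, hsurj, ?_, ?_⟩
  · intro i
    have h1 := hR0 i
    rw [hR] at h1
    exact (equivShrink.{u} _).injective h1
  · intro T x
    refine ⟨R.homEquiv.symm (equivShrink.{u} _ x), ?_, ?_⟩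
    · have := hR (R.homEquiv.symm (equivShrink.{u} _ x))
      rw [Equiv.apply_symm_apply] at this
      exact ((equivShrink.{u} _).injective this).symm
    · intro g hg
      apply R.homEquiv.injective
      rw [Equiv.apply_symm_apply, hR, hg]

lemma exists_representing_aux (hG : Presieve.IsSheaf Scheme.zariskiTopology G)
    (C : AbsCharts G) :
    ∃ (J : Scheme.{u}) (univ : G.obj (op J)) (j : ∀ i, C.X i ⟶ J),
      (∀ i, IsOpenImmersion (j i)) ∧ (∀ p : J, ∃ i, p ∈ Set.range (j i)) ∧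
      (∀ i, G.map (j i).op univ = C.u i) ∧
      ∀ (T : Scheme.{u}) (x : G.obj (op T)), ∃! g : T ⟶ J, G.map g.op univ = x := by
  have hf := chartMapS_presheaf hG C
  have : Presheaf.IsLocallySurjective Scheme.zariskiTopology (Sigma.desc (chartMapS hG C)) :=
    isLocallySurjective_descS hG C
  refine exists_representing_of_representableBy C
    (Scheme.LocalRepresentability.representableBy hf)
    (fun i => Scheme.LocalRepresentability.toGlued hf i) (fun i => inferInstance) ?_ ?_
  · intro p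
    obtain ⟨i, y, hy⟩ := (Scheme.LocalRepresentability.glueData hf).openCover.exists_eq p
    exact ⟨i, y, hy⟩
  · intro i
    have := Scheme.LocalRepresentability.yonedaGluedToSheaf_app_toGlued hf (i := i)
    refine Eq.trans ?_ (this.trans ?_)
    · rfl
    · exact Equiv.apply_symm_apply _ _

end Final

/-- **Zariski-local representability with charts tested on affine schemes**, for presheaves
with values in an arbitrary universe. -/
theorem exists_representing (hG : Presieve.IsSheaf Scheme.zariskiTopology G)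
    (C : AbsCharts G) :
    ∃ (J : Scheme.{u}) (univ : G.obj (op J)) (j : ∀ i, C.X i ⟶ J),
      (∀ i, IsOpenImmersion (j i)) ∧ (∀ p : J, ∃ i, p ∈ Set.range (j i)) ∧
      (∀ i, G.map (j i).op univ = C.u i) ∧
      ∀ (T : Scheme.{u}) (x : G.obj (op T)), ∃! g : T ⟶ J, G.map g.op univ = x := by
  have : FunctorToTypes.Small.{u} G := C.functorSmall hG
  exact exists_representing_aux hG C

end

end Fermat.Agent.S25.H191
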