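import Fermat.Agent.S25.Defs
import Fermat.Agent.S25.H191.AbsCharts

set_option autoImplicit false
set_option linter.style.haveILetI false
universe u
open CategoryTheory CategoryTheory.Limits AlgebraicGeometry AlgebraicGeometry.RelPicard
  NeronModelInfra GoodReductionJacobian Opposite

namespace Fermat.Agent.S25.H191

noncomputable section

variable {k : Type u} [Field k] {C : Scheme.{u}} {c : C ⟶ Spec (CommRingCat.of k)}
  {ε : SchemeHomOver (𝟙 (Spec (CommRingCat.of k))) c}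

section RIsoCalc

variable {T T' T'' : Scheme.{u}} {t : T ⟶ Spec (CommRingCat.of k)}
  {t' : T' ⟶ Spec (CommRingCat.of k)} {t'' : T'' ⟶ Spec (CommRingCat.of k)}

theorem riso_refl (M : RigidifiedLineBundle c ε t) : RIso M M := ⟨Iso.refl _⟩

theorem riso_symm {M M' : RigidifiedLineBundle c ε t} (h : RIso M M') : RIso M' M :=
  ⟨h.some.symm⟩

theorem riso_trans {M M' M'' : RigidifiedLineBundle c ε t} (h : RIso M M') (h' : RIso M' M'') :
    RIso M M'' :=
  ⟨h.some ≪≫ h'.some⟩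

theorem riso_pullbackAlong {M M' : RigidifiedLineBundle c ε t} (ψ : SchemeHomOver t' t)
    (h : RIso M M') : RIso (M.pullbackAlong ψ) (M'.pullbackAlong ψ) :=
  RigidifiedLineBundle.pullbackAlong_congr ψ h

theorem riso_pullbackAlong_id (M : RigidifiedLineBundle c ε t) (h : 𝟙 T ≫ t = t) :
    RIso (M.pullbackAlong ⟨𝟙 T, h⟩) M :=
  ⟨(Scheme.Modules.pullbackCongr (baseChangeSnd_id c t)).app M.L ≪≫
    (Scheme.Modules.pullbackId (pullback c t)).app M.L⟩

theorem riso_pullbackAlong_comp (M : RigidifiedLineBundle c ε t) (φ : SchemeHomOver t' t)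
    (ψ : SchemeHomOver t'' t') :
    RIso ((M.pullbackAlong φ).pullbackAlong ψ) (M.pullbackAlong (postComp φ ψ)) :=
  ⟨(Scheme.Modules.pullbackComp _ _).app M.L ≪≫
    (Scheme.Modules.pullbackCongr (baseChangeSnd_comp c φ ψ)).app M.L⟩

theorem riso_pullbackAlong_of_eq (M : RigidifiedLineBundle c ε t) (ψ ψ' : SchemeHomOver t' t)
    (h : ψ.1 = ψ'.1) : RIso (M.pullbackAlong ψ) (M.pullbackAlong ψ') := by
  have : ψ = ψ' := Subtype.ext h
  subst this
  exact riso_refl _

/-- Composite pullback, with an arbitrary presentation of the composite. -/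
theorem riso_pullbackAlong_comp' (M : RigidifiedLineBundle c ε t) (φ : SchemeHomOver t' t)
    (ψ : SchemeHomOver t'' t') (χ : SchemeHomOver t'' t) (h : χ.1 = ψ.1 ≫ φ.1) :
    RIso ((M.pullbackAlong φ).pullbackAlong ψ) (M.pullbackAlong χ) :=
  riso_trans (riso_pullbackAlong_comp M φ ψ) (riso_pullbackAlong_of_eq M _ _ h.symm)

end RIsoCalc

section Pt

variable (c ε)

/-- A degree-zero rigidified line bundle over some `k`-structure on `T`. -/
structure Pt (T : Scheme.{u}) : Type (u + 1) where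
  t : T ⟶ Spec (CommRingCat.of k)
  M : RigidifiedLineBundle c ε t
  deg0 : FibrewiseAlgEquivZero M

variable {c ε}

/-- Two points are related if their structure maps agree and the bundles are isomorphic. -/
def Pt.Rel {T : Scheme.{u}} (x y : Pt c ε T) : Prop :=
  ∃ h : x.t = y.t, RIso (x.M.pullbackAlong
    (⟨𝟙 T, (Category.id_comp _).trans h⟩ : SchemeHomOver y.t x.t)) y.M

theorem Pt.rel_mk_iff {T : Scheme.{u}} {t : T ⟶ Spec (CommRingCat.of k)}
    (M M' : RigidifiedLineBundle c ε t) (d : FibrewiseAlgEquivZero M)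
    (d' : FibrewiseAlgEquivZero M') :
    Pt.Rel (⟨t, M, d⟩ : Pt c ε T) ⟨t, M', d'⟩ ↔ RIso M M' := by
  constructor
  · rintro ⟨h, r⟩
    exact riso_trans (riso_symm (riso_pullbackAlong_id M _)) r
  · intro r
    exact ⟨rfl, riso_trans (riso_pullbackAlong_id M _) r⟩

theorem Pt.Rel.refl {T : Scheme.{u}} (x : Pt c ε T) : Pt.Rel x x := by
  obtain ⟨t, M, d⟩ := x
  exact (Pt.rel_mk_iff M M d d).2 (riso_refl M)

theorem Pt.Rel.symm {T : Scheme.{u}} {x y : Pt c ε T} (h : Pt.Rel x y) : Pt.Rel y x := by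
  obtain ⟨t, M, d⟩ := x
  obtain ⟨t', M', d'⟩ := y
  obtain ⟨h1, -⟩ := id h
  change t = t' at h1
  subst h1
  exact (Pt.rel_mk_iff _ _ _ _).2 (riso_symm ((Pt.rel_mk_iff _ _ _ _).1 h))

theorem Pt.Rel.trans {T : Scheme.{u}} {x y z : Pt c ε T} (h : Pt.Rel x y) (h' : Pt.Rel y z) :
    Pt.Rel x z := by
  obtain ⟨t, M, d⟩ := x
  obtain ⟨t', M', d'⟩ := y
  obtain ⟨t'', M'', d''⟩ := z
  obtain ⟨h1, -⟩ := id h
  obtain ⟨h2, -⟩ := id h'
  change t = t' at h1
  change t' = t'' at h2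
  subst h1
  subst h2
  exact (Pt.rel_mk_iff _ _ _ _).2
    (riso_trans ((Pt.rel_mk_iff _ _ _ _).1 h) ((Pt.rel_mk_iff _ _ _ _).1 h'))

/-- The setoid on points. -/
def Pt.setoid (T : Scheme.{u}) : Setoid (Pt c ε T) where
  r := Pt.Rel
  iseqv := ⟨Pt.Rel.refl, Pt.Rel.symm, Pt.Rel.trans⟩

/-- Pullback of a point along a morphism of schemes. -/
def Pt.pull {T T' : Scheme.{u}} (a : T' ⟶ T) (x : Pt c ε T) : Pt c ε T' where
  t := a ≫ x.t
  M := x.M.pullbackAlong ⟨a, rfl⟩
  deg0 := x.deg0.pullback _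

theorem Pt.Rel.pull {T T' : Scheme.{u}} (a : T' ⟶ T) {x y : Pt c ε T} (h : Pt.Rel x y) :
    Pt.Rel (Pt.pull a x) (Pt.pull a y) := by
  obtain ⟨t, M, d⟩ := x
  obtain ⟨t', M', d'⟩ := y
  obtain ⟨h1, -⟩ := id h
  change t = t' at h1
  subst h1
  exact (Pt.rel_mk_iff _ _ _ _).2 (riso_pullbackAlong _ ((Pt.rel_mk_iff _ _ _ _).1 h))

/-- Key transport lemma: pulling back along the same morphism with two presentations of the
target structure map gives related points. -/
theorem Pt.rel_pullbackAlong {T T' : Scheme.{u}} {t : T ⟶ Spec (CommRingCat.of k)}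
    (M : RigidifiedLineBundle c ε t) (d : FibrewiseAlgEquivZero M) (a : T' ⟶ T)
    {t₁ t₂ : T' ⟶ Spec (CommRingCat.of k)} (h₁ : a ≫ t = t₁) (h₂ : a ≫ t = t₂) :
    Pt.Rel (⟨t₁, M.pullbackAlong ⟨a, h₁⟩, d.pullback _⟩ : Pt c ε T')
      ⟨t₂, M.pullbackAlong ⟨a, h₂⟩, d.pullback _⟩ := by
  subst h₁
  subst h₂
  exact Pt.Rel.refl _

end Pt

section Gt

variable (c ε)

/-- The absolute degree-zero rigidified Picard presheaf on all schemes. -/
def Gt : Scheme.{u}ᵒᵖ ⥤ Type (u + 1) where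
  obj T := Quotient (Pt.setoid (c := c) (ε := ε) T.unop)
  map {T T'} a := TypeCat.ofHom
    (Quotient.map (sa := Pt.setoid T.unop) (sb := Pt.setoid T'.unop) (Pt.pull a.unop)
      (fun _ _ h => Pt.Rel.pull a.unop h))
  map_id T := TypeCat.homEquiv.injective (funext fun x => by
    induction x using Quotient.ind with
    | _ x =>
      obtain ⟨t, M, d⟩ := x
      refine Quotient.sound (s := Pt.setoid T.unop) ?_
      refine Pt.Rel.trans (Pt.rel_pullbackAlong M d (𝟙 _) rfl (Category.id_comp t)) ?_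
      exact (Pt.rel_mk_iff _ _ _ _).2 (riso_pullbackAlong_id M _))
  map_comp {T T' T''} a b := TypeCat.homEquiv.injective (funext fun x => by
    induction x using Quotient.ind with
    | _ x =>
      obtain ⟨t, M, d⟩ := x
      refine Quotient.sound (s := Pt.setoid T''.unop) ?_
      refine Pt.Rel.trans (Pt.rel_pullbackAlong M d (b.unop ≫ a.unop) rfl
        (Category.assoc _ _ _)) ?_
      exact (Pt.rel_mk_iff _ _ _ _).2 (riso_symm (riso_pullbackAlong_comp' M _ _ _ rfl)))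

variable {c ε}

/-- The class of a degree-zero rigidified line bundle. -/
def Gt.mk {T : Scheme.{u}} (t : T ⟶ Spec (CommRingCat.of k)) (M : RigidifiedLineBundle c ε t)
    (d : FibrewiseAlgEquivZero M) : (Gt c ε).obj (op T) :=
  Quotient.mk (Pt.setoid T) ⟨t, M, d⟩

theorem Gt.exists_rep {T : Scheme.{u}} (x : (Gt c ε).obj (op T)) :
    ∃ (t : T ⟶ Spec (CommRingCat.of k)) (M : RigidifiedLineBundle c ε t)
      (d : FibrewiseAlgEquivZero M), x = Gt.mk t M d := by
  induction x using Quotient.ind with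
  | _ x => exact ⟨x.t, x.M, x.deg0, rfl⟩

theorem Gt.mk_eq_mk_iff {T : Scheme.{u}} {t : T ⟶ Spec (CommRingCat.of k)}
    (M M' : RigidifiedLineBundle c ε t) (d : FibrewiseAlgEquivZero M)
    (d' : FibrewiseAlgEquivZero M') :
    Gt.mk t M d = Gt.mk t M' d' ↔ RIso M M' := by
  rw [← Pt.rel_mk_iff M M' d d']
  exact Quotient.eq (r := Pt.setoid T)

theorem Gt.base_eq_of_mk_eq {T : Scheme.{u}} {t t' : T ⟶ Spec (CommRingCat.of k)}
    {M : RigidifiedLineBundle c ε t} {M' : RigidifiedLineBundle c ε t'}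
    {d : FibrewiseAlgEquivZero M} {d' : FibrewiseAlgEquivZero M'}
    (h : Gt.mk t M d = Gt.mk t' M' d') : t = t' := by
  obtain ⟨h1, -⟩ := (Quotient.eq (r := Pt.setoid T)).1 h
  exact h1

theorem Gt.map_mk {T T' : Scheme.{u}} (a : T' ⟶ T) (t : T ⟶ Spec (CommRingCat.of k))
    (M : RigidifiedLineBundle c ε t) (d : FibrewiseAlgEquivZero M) :
    (Gt c ε).map a.op (Gt.mk t M d) = Gt.mk (a ≫ t) (M.pullbackAlong ⟨a, rfl⟩) (d.pullback _) :=
  rfl

theorem Gt.map_mk' {T T' : Scheme.{u}} {t : T ⟶ Spec (CommRingCat.of k)}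
    {t' : T' ⟶ Spec (CommRingCat.of k)} (ψ : SchemeHomOver t' t)
    (M : RigidifiedLineBundle c ε t) (d : FibrewiseAlgEquivZero M) :
    (Gt c ε).map ψ.1.op (Gt.mk t M d) = Gt.mk t' (M.pullbackAlong ψ) (d.pullback _) := by
  rw [Gt.map_mk]
  exact Quotient.sound (s := Pt.setoid T') (Pt.rel_pullbackAlong M d ψ.1 rfl ψ.2)

/-- A class whose structure map is (propositionally) `t` has a representative over `t`. -/
theorem Gt.exists_rep_over {T : Scheme.{u}} {t t' : T ⟶ Spec (CommRingCat.of k)}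
    (M : RigidifiedLineBundle c ε t) (d : FibrewiseAlgEquivZero M) (h : t = t') :
    ∃ (M' : RigidifiedLineBundle c ε t') (d' : FibrewiseAlgEquivZero M'),
      Gt.mk t M d = Gt.mk t' M' d' := by
  subst h
  exact ⟨M, d, rfl⟩

end Gt

section Sheaf

/-- Sheaf criterion on the big Zariski site: check small open covers. -/
theorem isSheaf_zariski_of_openCover {G : Scheme.{u}ᵒᵖ ⥤ Type (u + 1)}
    (h : ∀ (T : Scheme.{u}) (𝒰 : Scheme.OpenCover.{u} T),
      Presieve.IsSheafFor G (Presieve.ofArrows 𝒰.X 𝒰.f)) :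
    Presieve.IsSheaf Scheme.zariskiTopology G := by
  rw [Scheme.zariskiTopology, Scheme.grothendieckTopology,
    Precoverage.isSheaf_toGrothendieck_iff_of_isStableUnderBaseChange_of_small.{u}]
  intro X E
  exact h X E

theorem Gt.sep (hS : Stmt.SheafSep c ε) {T : Scheme.{u}} (𝒰 : Scheme.OpenCover.{u} T)
    (x y : (Gt c ε).obj (op T))
    (h : ∀ j, (Gt c ε).map (𝒰.f j).op x = (Gt c ε).map (𝒰.f j).op y) : x = y := by
  obtain ⟨t, M, d, rfl⟩ := Gt.exists_rep x
  obtain ⟨t', M', d', rfl⟩ := Gt.exists_rep y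
  have ht : t = t' := 𝒰.hom_ext _ _ fun j => Gt.base_eq_of_mk_eq (h j)
  subst ht
  rw [Gt.mk_eq_mk_iff]
  refine hS t (fun j => (𝒰.f j).opensRange) 𝒰.iSup_opensRange M M' fun j => ?_
  rw [← Gt.mk_eq_mk_iff (d := d.pullback _) (d' := d'.pullback _)]
  change (Gt c ε).map (𝒰.f j).opensRange.ι.op (Gt.mk t M d) =
    (Gt c ε).map (𝒰.f j).opensRange.ι.op (Gt.mk t M' d')
  rw [← Scheme.Hom.isoOpensRange_inv_comp (𝒰.f j), map_comp_apply', map_comp_apply', h j]

theorem Gt.glue (hGl : Stmt.SheafGlue c ε) (hL : Stmt.LocalP c ε) {T : Scheme.{u}}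
    (𝒰 : Scheme.OpenCover.{u} T) (x : ∀ j, (Gt c ε).obj (op (𝒰.X j)))
    (hx : Presieve.Arrows.Compatible (Gt c ε) 𝒰.f x) :
    ∃ x₀ : (Gt c ε).obj (op T), ∀ j, (Gt c ε).map (𝒰.f j).op x₀ = x j := by
  choose tj Mj dj hxj using fun j => Gt.exists_rep (x j)
  have hcompat : ∀ i j, pullback.fst (𝒰.f i) (𝒰.f j) ≫ tj i =
      pullback.snd (𝒰.f i) (𝒰.f j) ≫ tj j := by
    intro i j
    have := hx i j _ (pullback.fst (𝒰.f i) (𝒰.f j)) (pullback.snd _ _) pullback.condition
    rw [hxj i, hxj j] at this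
    exact Gt.base_eq_of_mk_eq this
  have ht : ∀ j, 𝒰.f j ≫ 𝒰.glueMorphisms tj hcompat = tj j := 𝒰.ι_glueMorphisms tj hcompat
  generalize 𝒰.glueMorphisms tj hcompat = t at ht
  have hx' : ∀ j, ∃ (M' : RigidifiedLineBundle c ε ((𝒰.f j).opensRange.ι ≫ t))
      (d' : FibrewiseAlgEquivZero M'),
      (Gt c ε).map (𝒰.f j).isoOpensRange.inv.op (x j) =
        Gt.mk ((𝒰.f j).opensRange.ι ≫ t) M' d' := by
    intro j
    rw [hxj j, Gt.map_mk]
    refine Gt.exists_rep_over _ _ ?_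
    rw [← ht j, ← Category.assoc, Scheme.Hom.isoOpensRange_inv_comp]
  choose M' d' hM' using hx'
  have hov : ∀ i j, RIso
      (restrictLE (M' i) (inf_le_left : (𝒰.f i).opensRange ⊓ (𝒰.f j).opensRange ≤ _))
      (restrictLE (M' j) (inf_le_right : (𝒰.f i).opensRange ⊓ (𝒰.f j).opensRange ≤ _)) := by
    intro i j
    rw [← Gt.mk_eq_mk_iff (d := (d' i).pullback _) (d' := (d' j).pullback _)]
    have e1 := Gt.map_mk' (⟨T.homOfLE (inf_le_left :
      (𝒰.f i).opensRange ⊓ (𝒰.f j).opensRange ≤ _), by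
        rw [← Category.assoc, Scheme.homOfLE_ι]⟩ :
      SchemeHomOver (((𝒰.f i).opensRange ⊓ (𝒰.f j).opensRange).ι ≫ t)
        ((𝒰.f i).opensRange.ι ≫ t)) (M' i) (d' i)
    have e2 := Gt.map_mk' (⟨T.homOfLE (inf_le_right :
      (𝒰.f i).opensRange ⊓ (𝒰.f j).opensRange ≤ _), by
        rw [← Category.assoc, Scheme.homOfLE_ι]⟩ :
      SchemeHomOver (((𝒰.f i).opensRange ⊓ (𝒰.f j).opensRange).ι ≫ t)
        ((𝒰.f j).opensRange.ι ≫ t)) (M' j) (d' j)
    refine e1.symm.trans (Eq.trans ?_ e2)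
    rw [← hM' i, ← hM' j, ← map_comp_apply', ← map_comp_apply']
    apply hx
    simp only [Category.assoc, Scheme.Hom.isoOpensRange_inv_comp, Scheme.homOfLE_ι]
  obtain ⟨M₀, hM₀⟩ := hGl t (fun j => (𝒰.f j).opensRange) 𝒰.iSup_opensRange M' hov
  have d₀ : FibrewiseAlgEquivZero M₀ := hL t (fun j => (𝒰.f j).opensRange) 𝒰.iSup_opensRange M₀
    fun j => FibrewiseAlgEquivZero.congr (riso_symm (hM₀ j)) (d' j)
  refine ⟨Gt.mk t M₀ d₀, fun j => ?_⟩
  have h1 : (Gt c ε).map (𝒰.f j).opensRange.ι.op (Gt.mk t M₀ d₀) =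
      Gt.mk ((𝒰.f j).opensRange.ι ≫ t) (M' j) (d' j) := by
    rw [Gt.map_mk, Gt.mk_eq_mk_iff]
    exact hM₀ j
  rw [← Scheme.Hom.isoOpensRange_hom_ι (𝒰.f j), map_comp_apply', h1, ← hM' j,
    ← map_comp_apply', Iso.hom_inv_id, map_id_apply']

theorem isSheaf_Gt (hS : Stmt.SheafSep c ε) (hGl : Stmt.SheafGlue c ε) (hL : Stmt.LocalP c ε) :
    Presieve.IsSheaf Scheme.zariskiTopology (Gt c ε) := by
  refine isSheaf_zariski_of_openCover fun T 𝒰 => ?_
  rw [Presieve.isSheafFor_arrows_iff]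
  intro x hx
  obtain ⟨x₀, hx₀⟩ := Gt.glue hGl hL 𝒰 x hx
  refine ⟨x₀, hx₀, fun y hy => ?_⟩
  exact Gt.sep hS 𝒰 _ _ fun j => (hy j).trans (hx₀ j).symm

end Sheaf

section Charts

/-- A morphism of affine schemes over `Spec k` comes from a `k`-algebra homomorphism. -/
lemma exists_algHom_of_over {A B : Type u} [CommRing A] [CommRing B] [Algebra k A]
    [Algebra k B] (g : Spec (CommRingCat.of B) ⟶ Spec (CommRingCat.of A))
    (hg : g ≫ specStr k A = specStr k B) :
    ∃ φ : A →ₐ[k] B, (specHomOver k φ).1 = g := by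
  have h1 : CommRingCat.ofHom (algebraMap k A) ≫ Spec.preimage g =
      CommRingCat.ofHom (algebraMap k B) := by
    apply Spec.map_injective
    rw [Spec.map_comp, Spec.map_preimage]
    exact hg
  refine ⟨{ (Spec.preimage g).hom with
    commutes' := fun r => ?_ }, ?_⟩
  · have := congrArg (fun f => f.hom r) h1
    simpa using this
  · change Spec.map (CommRingCat.ofHom (Spec.preimage g).hom) = g
    exact Spec.map_preimage g

/-- The `k`-algebra structure on a ring induced by a structure morphism. -/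
abbrev algebraOfHom {A : Type u} [CommRing A]
    (s : Spec (CommRingCat.of A) ⟶ Spec (CommRingCat.of k)) : Algebra k A :=
  (Spec.preimage s).hom.toAlgebra

lemma specStr_algebraOfHom {A : Type u} [CommRing A]
    (s : Spec (CommRingCat.of A) ⟶ Spec (CommRingCat.of k)) :
    @specStr k _ A _ (algebraOfHom s) = s :=
  Spec.map_preimage s

variable (CF : ChartFamily c ε)

/-- The universal element over the `i`-th chart. -/
def chartElt (i : CF.ι) : (Gt c ε).obj (op (Spec (CommRingCat.of (CF.R i)))) :=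
  Gt.mk (specStr k (CF.R i)) (CF.bundle i) (CF.deg0 i)

lemma map_chartElt_specHomOver {A : Type u} [CommRing A] [Algebra k A] (i : CF.ι)
    (φ : CF.R i →ₐ[k] A) :
    (Gt c ε).map (specHomOver k φ).1.op (chartElt CF i) =
      Gt.mk (specStr k A) ((CF.bundle i).pullbackAlong (specHomOver k φ))
        ((CF.deg0 i).pullback _) :=
  Gt.map_mk' _ _ _

lemma base_map_chartElt {T : Scheme.{u}} (i : CF.ι) (g : T ⟶ Spec (CommRingCat.of (CF.R i)))
    {t : T ⟶ Spec (CommRingCat.of k)} {M : RigidifiedLineBundle c ε t}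
    {d : FibrewiseAlgEquivZero M}
    (h : (Gt c ε).map g.op (chartElt CF i) = Gt.mk t M d) : g ≫ specStr k (CF.R i) = t :=
  Gt.base_eq_of_mk_eq h

lemma chart_inj (i : CF.ι) (A : Type u) [CommRing A]
    (g g' : Spec (CommRingCat.of A) ⟶ Spec (CommRingCat.of (CF.R i)))
    (h : (Gt c ε).map g.op (chartElt CF i) = (Gt c ε).map g'.op (chartElt CF i)) : g = g' := by
  letI : Algebra k A := algebraOfHom (g ≫ specStr k (CF.R i))
  have hs : specStr k A = g ≫ specStr k (CF.R i) := specStr_algebraOfHom _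
  have hb : g' ≫ specStr k (CF.R i) = g ≫ specStr k (CF.R i) :=
    base_map_chartElt CF i g' h.symm
  obtain ⟨φ, hφ⟩ := exists_algHom_of_over g hs.symm
  obtain ⟨φ', hφ'⟩ := exists_algHom_of_over g' (hb.trans hs.symm)
  rw [← hφ, ← hφ', map_chartElt_specHomOver, map_chartElt_specHomOver, Gt.mk_eq_mk_iff] at h
  rw [← hφ, ← hφ', CF.inj i A φ φ' h]

/-- The open complement of the zero locus of an ideal. -/
def idealOpen {A : Type u} [CommRing A] (I : Ideal A) : (Spec (CommRingCat.of A)).Opens :=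
  ⟨(PrimeSpectrum.zeroLocus (I : Set A))ᶜ, (PrimeSpectrum.isClosed_zeroLocus _).isOpen_compl⟩

lemma mem_idealOpen {A : Type u} [CommRing A] (I : Ideal A) (p : Spec (CommRingCat.of A)) :
    p ∈ idealOpen I ↔ ¬ (I ≤ PrimeSpectrum.asIdeal (R := A) p) := by
  have h : p ∈ idealOpen I ↔
      ¬ ((I : Set A) ⊆ (PrimeSpectrum.asIdeal (R := A) p : Set A)) := Iff.rfl
  rw [h, SetLike.coe_subset_coe]

lemma iSup_idealOpen {A : Type u} [CommRing A] {ι : Type*} (I : ι → Ideal A)
    (h : (⨆ i, I i) = ⊤) : (⨆ i, idealOpen (I i)) = ⊤ := by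
  rw [eq_top_iff]
  rintro p -
  rw [TopologicalSpace.Opens.mem_iSup]
  by_contra hcon
  push Not at hcon
  have h1 : ∀ i, I i ≤ PrimeSpectrum.asIdeal (R := A) p := fun i => by
    have := hcon i
    rw [mem_idealOpen, not_not] at this
    exact this
  have h2 : (⨆ i, I i) ≤ PrimeSpectrum.asIdeal (R := A) p := iSup_le h1
  rw [h] at h2
  exact (PrimeSpectrum.isPrime (R := A) p).ne_top (top_le_iff.1 h2)

lemma map_eq_top_iff_forall_mem {A A' : Type u} [CommRing A] [CommRing A'] (f : A →+* A')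
    (I : Ideal A) :
    I.map f = ⊤ ↔ ∀ y : Spec (CommRingCat.of A'),
      (Spec.map (CommRingCat.ofHom f)) y ∈ idealOpen I := by
  have key : ∀ y : Spec (CommRingCat.of A'),
      (Spec.map (CommRingCat.ofHom f)) y ∈ idealOpen I ↔
        ¬ (I.map f ≤ PrimeSpectrum.asIdeal (R := A') y) := by
    intro y
    rw [mem_idealOpen, Ideal.map_le_iff_le_comap]
    rfl
  constructor
  · intro h y
    rw [key, h]
    exact fun h2 => (PrimeSpectrum.isPrime (R := A') y).ne_top (top_le_iff.1 h2)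
  · intro h
    by_contra hne
    obtain ⟨m, hm, hle⟩ := Ideal.exists_le_maximal _ hne
    exact (key ⟨m, hm.isPrime⟩).1 (h _) hle

lemma chart_locus (A : Type u) [CommRing A]
    (x : (Gt c ε).obj (op (Spec (CommRingCat.of A)))) :
    ∃ V : CF.ι → (Spec (CommRingCat.of A)).Opens, (⨆ i, V i) = ⊤ ∧
      ∀ (i : CF.ι) (A' : Type u) [CommRing A']
        (a : Spec (CommRingCat.of A') ⟶ Spec (CommRingCat.of A)),
        (∃ g : Spec (CommRingCat.of A') ⟶ Spec (CommRingCat.of (CF.R i)),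
          (Gt c ε).map g.op (chartElt CF i) = (Gt c ε).map a.op x) ↔ ∀ y, a y ∈ V i := by
  obtain ⟨t, M, d, rfl⟩ := Gt.exists_rep x
  letI : Algebra k A := algebraOfHom t
  obtain ⟨M', d', hM'⟩ := Gt.exists_rep_over M d (specStr_algebraOfHom t).symm
  rw [hM']
  obtain ⟨I, hI, hloc⟩ := CF.locus A M' d'
  refine ⟨fun i => idealOpen (I i), iSup_idealOpen I hI, fun i A' _ a => ?_⟩
  letI : Algebra k A' := algebraOfHom (a ≫ specStr k A)
  have hs' : specStr k A' = a ≫ specStr k A := specStr_algebraOfHom _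
  obtain ⟨ψ, hψ⟩ := exists_algHom_of_over a hs'.symm
  have key := hloc i A' ψ
  have h2 := map_eq_top_iff_forall_mem ψ.toRingHom (I i)
  rw [← hψ]
  refine Iff.trans ?_ (key.trans h2)
  rw [Gt.map_mk' (specHomOver k ψ) M' d']
  constructor
  · rintro ⟨g, hg⟩
    have hb := base_map_chartElt CF i g hg
    obtain ⟨φ, hφ⟩ := exists_algHom_of_over g hb
    refine ⟨φ, ?_⟩
    rw [← hφ, map_chartElt_specHomOver, Gt.mk_eq_mk_iff] at hg
    exact hg
  · rintro ⟨φ, hφ⟩
    refine ⟨(specHomOver k φ).1, ?_⟩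
    rw [map_chartElt_specHomOver, Gt.mk_eq_mk_iff]
    exact hφ

/-- The abstract chart structure on the absolute Picard presheaf given by a chart family. -/
def absCharts : AbsCharts (Gt c ε) where
  ι := CF.ι
  X i := Spec (CommRingCat.of (CF.R i))
  u i := chartElt CF i
  inj i R g g' h := chart_inj CF i R g g' h
  locus R x := by
    obtain ⟨V, hV, h⟩ := chart_locus CF R x
    exact ⟨V, hV, fun i R' a => h i R' a⟩

end Charts

section Main

/-- An open cover from a jointly surjective family of open immersions. -/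
def coverOfJointlySurjective {J : Scheme.{u}} {ι : Type u} {X : ι → Scheme.{u}}
    (j : ∀ i, X i ⟶ J) (hj : ∀ i, IsOpenImmersion (j i))
    (hsurj : ∀ p : J, ∃ i, p ∈ Set.range (j i)) : Scheme.OpenCover.{u} J where
  I₀ := ι
  X := X
  f := j
  mem₀ := by
    rw [Scheme.presieve₀_mem_precoverage_iff]
    exact ⟨hsurj, hj⟩

lemma locallyOfFiniteType_of_eq {X Y : Scheme.{u}} {f g : X ⟶ Y} (h : f = g)
    (hg : LocallyOfFiniteType g) : LocallyOfFiniteType f := h ▸ hg

/-- **AS4**: a chart family together with Zariski descent for rigidified line bundles gives a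
representing scheme, locally of finite type. -/
theorem rep_of_charts (hC : Stmt.Charts c ε) (hGl : Stmt.SheafGlue c ε)
    (hS : Stmt.SheafSep c ε) (hL : Stmt.LocalP c ε) : Stmt.Rep c ε := by
  obtain ⟨CF⟩ := hC
  have hG := isSheaf_Gt hS hGl hL
  obtain ⟨J, univ, j, hj, hsurj, hju, huniv⟩ := exists_representing hG (absCharts CF)
  obtain ⟨tJ, P, dP, rfl⟩ := Gt.exists_rep univ
  obtain ⟨z, hz, -⟩ := huniv (Spec (CommRingCat.of k))
    (Gt.mk (𝟙 _) (RigidifiedLineBundle.unit (𝟙 _)) (fibrewiseAlgEquivZero_unit _))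
  have hzb : z ≫ tJ = 𝟙 _ := Gt.base_eq_of_mk_eq hz
  refine ⟨⟨J, tJ, z, hzb⟩, ⟨{ poincare := P, poincare_mem := dP, univ := ?_, zero := ?_ }⟩, ?_⟩
  · intro T t M hM
    obtain ⟨g, hg, hguniq⟩ := huniv T (Gt.mk t M hM)
    have hgb : g ≫ tJ = t := Gt.base_eq_of_mk_eq hg
    refine ⟨⟨g, hgb⟩, ?_, ?_⟩
    · have h1 := Gt.map_mk' (⟨g, hgb⟩ : SchemeHomOver t tJ) P dP
      exact (Gt.mk_eq_mk_iff _ _ _ _).1 (h1.symm.trans hg)
    · rintro ⟨g', hg'b⟩ hg'
      apply Subtype.ext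
      apply hguniq
      have h1 := Gt.map_mk' (⟨g', hg'b⟩ : SchemeHomOver t tJ) P dP
      exact h1.trans ((Gt.mk_eq_mk_iff _ _ _ _).2 hg')
  · have h1 := Gt.map_mk' (⟨z, hzb⟩ : SchemeHomOver (𝟙 _) tJ) P dP
    exact (Gt.mk_eq_mk_iff _ _ _ _).1 (h1.symm.trans hz)
  · change LocallyOfFiniteType tJ
    have : IsZariskiLocalAtSource @LocallyOfFiniteType.{u} :=
      HasRingHomProperty.instIsZariskiLocalAtSource (P := @LocallyOfFiniteType)
        (Q := RingHom.FiniteType)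
    refine IsZariskiLocalAtSource.of_openCover (P := @LocallyOfFiniteType)
      (coverOfJointlySurjective j hj hsurj) fun (i : CF.ι) => ?_
    have hb : j i ≫ tJ = specStr k (CF.R i) := Gt.base_eq_of_mk_eq (hju i)
    have h3 : LocallyOfFiniteType (specStr k (CF.R i)) :=
      (HasRingHomProperty.Spec_iff (P := @LocallyOfFiniteType) (Q := RingHom.FiniteType)).2
        (RingHom.finiteType_algebraMap.2 (CF.finiteType i))
    exact locallyOfFiniteType_of_eq hb h3

end Main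

end

end Fermat.Agent.S25.H191
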